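import Mathlib
import Fermat.Prelude.Def_FLTPrelim_GaloisRep

/-!
# S51, part A: generic lemmas on torsion points of Weierstrass curves

* `card_torsionBy_le`: if the `x`-coordinates of the nonzero `n`-torsion points are roots of a
  nonzero polynomial `ψ`, then there are at most `2 * ψ.natDegree + 1` `n`-torsion points;
* `exists_smul_eq_of_mem`: in a finite `ZMod p`-module with at most `p ^ 2` elements, a submodule
  different from `⊥` and `⊤` is generated by each of its nonzero elements;
* `exists_rat_of_fixed`: an element of `AlgebraicClosure ℚ` fixed by the Galois group is rational;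
* `smul_some`: the Galois action on affine points.
-/

set_option autoImplicit false

open WeierstrassCurve Polynomial

namespace Fermat.Agent.S51

section card

variable {F : Type*} [Field F] [DecidableEq F] (E : WeierstrassCurve.Affine F)

/-- the polynomial in `Y` whose roots are the `y`-coordinates of the points with given `x` -/
noncomputable def yPoly (x : F) : F[X] :=
  X ^ 2 + C (E.a₁ * x + E.a₃) * X - C (x ^ 3 + E.a₂ * x ^ 2 + E.a₄ * x + E.a₆)

omit [DecidableEq F] in
theorem yPoly_ne_zero (x : F) : yPoly E x ≠ 0 := by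
  intro h
  have := congrArg (fun q : F[X] => q.coeff 2) h
  simp only [yPoly, coeff_sub, coeff_add, coeff_X_pow, coeff_C_mul, coeff_X, coeff_C,
    coeff_zero] at this
  norm_num at this

omit [DecidableEq F] in
theorem natDegree_yPoly_le (x : F) : (yPoly E x).natDegree ≤ 2 := by
  unfold yPoly
  compute_degree

omit [DecidableEq F] in
theorem yPoly_isRoot {x y : F} (h : E.Equation x y) : (yPoly E x).IsRoot y := by
  rw [WeierstrassCurve.Affine.equation_iff] at h
  simp only [yPoly, IsRoot.def, eval_sub, eval_add, eval_pow, eval_X, eval_mul, eval_C]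
  linear_combination h

/-- the finite set of pairs `(x, y)` with `ψ x = 0` on the curve -/
noncomputable def rootPairs (ψ : F[X]) : Finset (F × F) :=
  ψ.roots.toFinset.biUnion fun x => (yPoly E x).roots.toFinset.image fun y => (x, y)

theorem card_rootPairs_le (ψ : F[X]) : (rootPairs E ψ).card ≤ 2 * ψ.natDegree := by
  unfold rootPairs
  refine Finset.card_biUnion_le.trans ?_
  calc ∑ x ∈ ψ.roots.toFinset, ((yPoly E x).roots.toFinset.image fun y => (x, y)).card
      ≤ ∑ _x ∈ ψ.roots.toFinset, 2 := by
        refine Finset.sum_le_sum fun x _ => ?_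
        refine Finset.card_image_le.trans ?_
        refine (Multiset.toFinset_card_le _).trans ?_
        exact (card_roots' _).trans (natDegree_yPoly_le E x)
    _ = ψ.roots.toFinset.card * 2 := by rw [Finset.sum_const, smul_eq_mul]
    _ ≤ 2 * ψ.natDegree := by
        rw [mul_comm]
        exact Nat.mul_le_mul_left 2 ((Multiset.toFinset_card_le _).trans (card_roots' _))

theorem mem_rootPairs {ψ : F[X]} (hψ : ψ ≠ 0) {x y : F} (hx : ψ.eval x = 0)
    (h : E.Equation x y) : (x, y) ∈ rootPairs E ψ := by
  unfold rootPairs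
  rw [Finset.mem_biUnion]
  refine ⟨x, ?_, ?_⟩
  · rw [Multiset.mem_toFinset, mem_roots hψ]
    exact hx
  · rw [Finset.mem_image]
    refine ⟨y, ?_, rfl⟩
    rw [Multiset.mem_toFinset, mem_roots (yPoly_ne_zero E x)]
    exact yPoly_isRoot E h

/-- **the cardinality bound**: if the `x`-coordinates of the nonzero `n`-torsion points are roots
of the nonzero polynomial `ψ`, then there are at most `2 * ψ.natDegree + 1` `n`-torsion points -/
theorem card_torsionBy_le (n : ℕ) {ψ : F[X]} (hψ : ψ ≠ 0)
    (h : ∀ (x y : F) (hxy : E.Nonsingular x y),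
      (n : ℤ) • (Affine.Point.some x y hxy : E.Point) = 0 → ψ.eval x = 0) :
    Finite (Submodule.torsionBy ℤ E.Point n) ∧
      Nat.card (Submodule.torsionBy ℤ E.Point n) ≤ 2 * ψ.natDegree + 1 := by
  classical
  set g : Submodule.torsionBy ℤ E.Point n → Option (F × F) := fun P =>
    Option.map Subtype.val (E.nonsingularPointEquiv (P : E.Point)) with hg
  have hginj : Function.Injective g := by
    intro P Q hPQ
    apply Subtype.ext
    apply E.nonsingularPointEquiv.injective
    exact Option.map_injective Subtype.val_injective hPQ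
  have hrange : ∀ P, g P ∈ insert none ((rootPairs E ψ).image some) := by
    rintro ⟨P, hP⟩
    rw [Submodule.mem_torsionBy_iff] at hP
    rcases P with _ | ⟨x, y, hxy⟩
    · exact Finset.mem_insert_self _ _
    · refine Finset.mem_insert_of_mem (Finset.mem_image.mpr ⟨(x, y), ?_, rfl⟩)
      exact mem_rootPairs E hψ (h x y hxy hP) hxy.1
  have hfin : Finite (Submodule.torsionBy ℤ E.Point n) :=
    Finite.of_injective (fun P => (⟨g P, hrange P⟩ :
      (insert none ((rootPairs E ψ).image some) : Finset (Option (F × F))))) fun P Q hPQ =>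
      hginj (congrArg Subtype.val hPQ)
  refine ⟨hfin, ?_⟩
  have h1 : Nat.card (Submodule.torsionBy ℤ E.Point n) ≤
      Nat.card (insert none ((rootPairs E ψ).image some) : Finset (Option (F × F))) :=
    Nat.card_le_card_of_injective (fun P => (⟨g P, hrange P⟩ :
      (insert none ((rootPairs E ψ).image some) : Finset (Option (F × F))))) fun P Q hPQ =>
      hginj (congrArg Subtype.val hPQ)
  refine h1.trans ?_
  rw [Nat.card_eq_fintype_card, Fintype.card_coe]
  refine (Finset.card_insert_le _ _).trans ?_
  exact Nat.succ_le_succ (Finset.card_image_le.trans (card_rootPairs_le E ψ))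

end card

section module

/-- In a finite `ZMod p`-module with at most `p ^ 2` elements, a submodule different from `⊥`
and `⊤` is generated by each of its nonzero elements. -/
theorem exists_smul_eq_of_mem {p : ℕ} [hp : Fact p.Prime] {G : Type*} [AddCommGroup G]
    [Module (ZMod p) G] [Finite G] (hcard : Nat.card G ≤ p ^ 2) (N : Submodule (ZMod p) G)
    (htop : N ≠ ⊤) {P : G} (hP : P ∈ N) (hP0 : P ≠ 0) {Q : G} (hQ : Q ∈ N) :
    ∃ k : ZMod p, Q = k • P := by
  classical
  have : Fintype G := Fintype.ofFinite G
  have hfin : Module.Finite (ZMod p) G := Module.Finite.of_finite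
  have h1 : Fintype.card G = p ^ Module.finrank (ZMod p) G := by
    rw [Module.card_eq_pow_finrank (K := ZMod p) (V := G), ZMod.card]
  have h2 : Module.finrank (ZMod p) G ≤ 2 := by
    rw [Nat.card_eq_fintype_card, h1] at hcard
    exact (Nat.pow_le_pow_iff_right hp.out.one_lt).mp hcard
  have h3 : Module.finrank (ZMod p) N < Module.finrank (ZMod p) G := Submodule.finrank_lt htop
  have h4 : Module.finrank (ZMod p) N = 1 := by
    have h5 : 0 < Module.finrank (ZMod p) N := by
      rw [Module.finrank_pos_iff_exists_ne_zero]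
      exact ⟨⟨P, hP⟩, fun h => hP0 (congrArg Subtype.val h)⟩
    omega
  have h6 := (finrank_eq_one_iff_of_nonzero' (⟨P, hP⟩ : N)
    (fun h => hP0 (congrArg Subtype.val h))).mp h4 ⟨Q, hQ⟩
  obtain ⟨c, hc⟩ := h6
  exact ⟨c, (congrArg Subtype.val hc).symm⟩

end module

section galois

/-- an element of `AlgebraicClosure ℚ` fixed by the absolute Galois group is rational -/
theorem exists_rat_of_fixed (x : AlgebraicClosure ℚ)
    (h : ∀ σ : AlgebraicClosure ℚ ≃ₐ[ℚ] AlgebraicClosure ℚ, σ x = x) :
    ∃ r : ℚ, algebraMap ℚ (AlgebraicClosure ℚ) r = x := by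
  have h1 : Algebra.IsAlgebraic ℚ (AlgebraicClosure ℚ) := AlgebraicClosure.isAlgebraic ℚ
  have h2 : IsAlgClosure ℚ (AlgebraicClosure ℚ) := ⟨inferInstance, inferInstance⟩
  have : IsGalois ℚ (AlgebraicClosure ℚ) := IsAlgClosure.isGalois ℚ (AlgebraicClosure ℚ)
  exact (InfiniteGalois.mem_range_algebraMap_iff_fixed x).mpr h

variable {R : Type*} [CommRing R] {S : Type*} [CommRing S] {K : Type*} [Field K]
  [DecidableEq K] {W' : WeierstrassCurve.Affine R} [Algebra R S] [Algebra R K] [Algebra S K]
  [IsScalarTower R S K]

open WeierstrassCurve.Affine in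
/-- the Galois action on an affine point -/
theorem smul_some (σ : K ≃ₐ[S] K) {x y : K} (h : (W'⁄K).Nonsingular x y) :
    ∃ h' : (W'⁄K).Nonsingular (σ x) (σ y),
      σ • (Affine.Point.some x y h : (W'⁄K).Point) = Affine.Point.some (σ x) (σ y) h' := by
  refine ⟨?_, ?_⟩
  · have := (WeierstrassCurve.Affine.baseChange_nonsingular (W := W') (f := σ.toAlgHom)
      σ.injective x y).mpr h
    exact this
  · rfl

end galois

end Fermat.Agent.S51
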