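import Mathlib
import Fermat.Agent.S51.TorsionLib

/-!
# S51, part A: the duplication formula on `x`-coordinates (shared by A3 and A5)

For a nonsingular point `P = (x, y)` on a Weierstrass curve over a field:
* `f2 W x = (2 y + a₁ x + a₃)²` (`f2_eq_sq`), `f2 = ψ₂²` as a function of `x`;
* `P + P = 0 ↔ f2 W x = 0` (`add_self_eq_zero_iff`);
* if `P + P = (x', y')` then `x' * f2 W x = phi2 W x` and `f2 W x ≠ 0` (`add_self_x`).
-/

set_option autoImplicit false

open WeierstrassCurve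

namespace Fermat.Agent.S51

section defs

variable {K : Type*} [CommRing K] (W : WeierstrassCurve K)

/-- `ψ₂² = 4x³ + b₂x² + 2b₄x + b₆` as a function of `x` -/
def f2 (x : K) : K := 4 * x ^ 3 + W.b₂ * x ^ 2 + 2 * W.b₄ * x + W.b₆

/-- `φ₂ = x⁴ - b₄x² - 2b₆x - b₈` as a function of `x` -/
def phi2 (x : K) : K := x ^ 4 - W.b₄ * x ^ 2 - 2 * W.b₆ * x - W.b₈

/-- `ψ₃ = 3x⁴ + b₂x³ + 3b₄x² + 3b₆x + b₈` as a function of `x` -/
def psi3 (x : K) : K := 3 * x ^ 4 + W.b₂ * x ^ 3 + 3 * W.b₄ * x ^ 2 + 3 * W.b₆ * x + W.b₈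

theorem psi3_eq (x : K) : psi3 W x = x * f2 W x - phi2 W x := by
  simp only [psi3, f2, phi2]; ring

theorem f2_eq_sq {x y : K} (h : W.toAffine.Equation x y) :
    f2 W x = (2 * y + W.a₁ * x + W.a₃) ^ 2 := by
  rw [Affine.equation_iff] at h
  simp only [f2, b₂, b₄, b₆]
  linear_combination (-4) * h

end defs

section field

variable {K : Type*} [Field K] [DecidableEq K] (W : WeierstrassCurve K)

theorem add_self_eq_zero_iff {x y : K} (h : W.toAffine.Nonsingular x y) :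
    (Affine.Point.some x y h + Affine.Point.some x y h = 0) ↔ f2 W x = 0 := by
  rw [f2_eq_sq W h.1]
  constructor
  · intro h0
    by_cases hy : y = W.toAffine.negY x y
    · rw [Affine.negY] at hy
      have : 2 * y + W.a₁ * x + W.a₃ = 0 := by linear_combination hy
      rw [this]; ring
    · rw [Affine.Point.add_self_of_Y_ne hy] at h0
      exact absurd h0 (Affine.Point.some_ne_zero _)
  · intro h0
    have h1 : 2 * y + W.a₁ * x + W.a₃ = 0 := by
      exact pow_eq_zero_iff (n := 2) (by norm_num) |>.mp h0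
    apply Affine.Point.add_self_of_Y_eq
    rw [Affine.negY]
    linear_combination h1

theorem add_self_x {x y x' y' : K} (h : W.toAffine.Nonsingular x y)
    (h' : W.toAffine.Nonsingular x' y')
    (h2 : Affine.Point.some x y h + Affine.Point.some x y h = Affine.Point.some x' y' h') :
    x' * f2 W x = phi2 W x ∧ f2 W x ≠ 0 := by
  have hf : f2 W x ≠ 0 := by
    intro h0
    rw [(add_self_eq_zero_iff W h).mpr h0] at h2
    exact (Affine.Point.some_ne_zero h') h2.symm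
  refine ⟨?_, hf⟩
  have hy : y ≠ W.toAffine.negY x y := by
    intro hy
    rw [Affine.Point.add_self_of_Y_eq hy] at h2
    exact (Affine.Point.some_ne_zero h') h2.symm
  rw [Affine.Point.add_self_of_Y_ne hy] at h2
  have hx : x' = W.toAffine.addX x x (W.toAffine.slope x x y y) := by
    injection h2 with hx _
    exact hx.symm
  have hne : y - W.toAffine.negY x y ≠ 0 := sub_ne_zero.mpr hy
  have heq := h.1
  rw [Affine.equation_iff] at heq
  have h3 : y - W.toAffine.negY x y = 2 * y + W.a₁ * x + W.a₃ := by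
    rw [Affine.negY]; ring
  have hℓ : W.toAffine.slope x x y y * (2 * y + W.a₁ * x + W.a₃) =
      3 * x ^ 2 + 2 * W.a₂ * x + W.a₄ - W.a₁ * y := by
    rw [Affine.slope_of_Y_ne rfl hy, h3]
    rw [h3] at hne
    exact div_mul_cancel₀ _ hne
  rw [hx, Affine.addX, f2_eq_sq W h.1]
  generalize W.toAffine.slope x x y y = ℓ at hℓ
  simp only [phi2, b₄, b₆, b₈]
  linear_combination (ℓ * (2 * y + W.a₁ * x + W.a₃) + (3 * x ^ 2 + 2 * W.a₂ * x + W.a₄ - W.a₁ * y)
    + W.a₁ * (2 * y + W.a₁ * x + W.a₃)) * hℓ - (W.a₁ ^ 2 + 4 * W.a₂ + 8 * x) * heq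

/-- **F3**: the `x`-coordinates `x₁ = x(P)`, `x₂ = x(2P)` of a point of exact order `5`. -/
theorem five_torsion_coords {x₁ y₁ : K} (h₁ : W.toAffine.Nonsingular x₁ y₁)
    (h5 : 5 • (Affine.Point.some x₁ y₁ h₁) = 0) :
    ∃ (x₂ y₂ : K) (h₂ : W.toAffine.Nonsingular x₂ y₂),
      2 • (Affine.Point.some x₁ y₁ h₁) = Affine.Point.some x₂ y₂ h₂ ∧
      4 • (Affine.Point.some x₁ y₁ h₁) = -Affine.Point.some x₁ y₁ h₁ ∧
      2 • (Affine.Point.some x₂ y₂ h₂) = -Affine.Point.some x₁ y₁ h₁ ∧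
      x₁ ≠ x₂ ∧ f2 W x₁ ≠ 0 ∧ f2 W x₂ ≠ 0 ∧
      x₂ * f2 W x₁ = phi2 W x₁ ∧ x₁ * f2 W x₂ = phi2 W x₂ := by
  set P : W.toAffine.Point := Affine.Point.some x₁ y₁ h₁ with hP
  have hP0 : P ≠ 0 := Affine.Point.some_ne_zero h₁
  have h4 : 4 • P = -P := by
    have : 4 • P + P = 0 := by rw [← succ_nsmul]; exact h5
    exact eq_neg_of_add_eq_zero_left this
  have h2ne : 2 • P ≠ 0 := by
    intro h0
    apply hP0
    have : 5 • P = 2 • (2 • P) + P := by rw [← mul_nsmul, ← succ_nsmul]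
    rw [this, h0, nsmul_zero, zero_add] at h5
    exact h5
  have h4ne : 4 • P ≠ 0 := by
    rw [h4]; exact neg_ne_zero.mpr hP0
  rcases h2P : 2 • P with _ | ⟨x₂, y₂, h₂⟩
  · exact absurd h2P h2ne
  have h22 : 2 • (Affine.Point.some x₂ y₂ h₂ : W.toAffine.Point) = -P := by
    rw [← h2P, ← mul_nsmul]; exact h4
  have hadd1 : P + P = Affine.Point.some x₂ y₂ h₂ := by rw [← two_nsmul]; exact h2P
  have hadd2 : Affine.Point.some x₂ y₂ h₂ + Affine.Point.some x₂ y₂ h₂ =
      Affine.Point.some x₁ (W.toAffine.negY x₁ y₁) ((Affine.nonsingular_neg ..).mpr h₁) := by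
    rw [← two_nsmul, h22, hP, Affine.Point.neg_some]
  obtain ⟨e1, f1⟩ := add_self_x W h₁ h₂ hadd1
  obtain ⟨e2, f2'⟩ := add_self_x W h₂ _ hadd2
  refine ⟨x₂, y₂, h₂, rfl, h4, h22, ?_, f1, f2', e1, e2⟩
  intro hx
  rcases (Affine.Point.X_eq_iff (h₁ := h₁) (h₂ := h₂)).mp hx with h | h
  · -- P = 2P, so P = 0
    apply hP0
    have h' : P + P = P := by rw [hadd1]; exact h.symm
    exact add_eq_right.mp h'
  · -- P = -2P, so 3P = 0, so 2P = 0
    apply h2ne
    have h3 : 3 • P = 0 := by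
      have : 3 • P = 2 • P + P := by rw [← succ_nsmul]
      have h' : P = -Affine.Point.some x₂ y₂ h₂ := h
      rw [this, h2P, h']
      exact add_neg_cancel (Affine.Point.some x₂ y₂ h₂ : W.toAffine.Point)
    have : 5 • P = 3 • P + 2 • P := by rw [← add_nsmul]
    rw [this, h3, zero_add] at h5
    exact h5

end field

end Fermat.Agent.S51
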