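import Mathlib
import Fermat.Agent.S51.Double

/-!
# S51, part A5, piece F6: the pure algebra behind `X₀(5)`

For a Weierstrass curve with `b`-invariants `b₂ b₄ b₆ b₈` over a field and two distinct
`x`-coordinates `x₁ = x(P)`, `x₂ = x(2P)` with `x(2 · 2P) = x(P)` (i.e. `P` of exact order 5),
the quantity
`g = (2 b₄ + s b₂ - 7 s² + 40 t) / (s² - 4 t)`, `s = x₁ + x₂`, `t = x₁ x₂`,
satisfies `g ≠ 0` and `c₄³ g = (g² + 10 g + 5)³ Δ`.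
-/

set_option autoImplicit false

namespace Fermat.Agent.S51

/-- The translated situation: `x₁ = 0`, `x₂ = d ≠ 0`. -/
theorem five_alg_zero {F : Type*} [Field F] (h5 : (5 : F) ≠ 0) (B2 B4 B6 B8 d : F)
    (hb : 4 * B8 = B2 * B6 - B4 ^ 2)
    (hΔ : -B2 ^ 2 * B8 - 8 * B4 ^ 3 - 27 * B6 ^ 2 + 9 * B2 * B4 * B6 ≠ 0)
    (hd : d ≠ 0)
    (h1 : B8 = -d * B6)
    (h2 : d ^ 4 - B4 * d ^ 2 - 2 * B6 * d - B8 = 0) :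
    ∃ g : F, g * d ^ 2 = 2 * B4 + d * B2 - 7 * d ^ 2 ∧ g ≠ 0 ∧
      (B2 ^ 2 - 24 * B4) ^ 3 * g = (g ^ 2 + 10 * g + 5) ^ 3 *
        (-B2 ^ 2 * B8 - 8 * B4 ^ 3 - 27 * B6 ^ 2 + 9 * B2 * B4 * B6) := by
  -- `B6 = d³ - B4 d`
  have h6 : B6 = d ^ 3 - B4 * d := by
    have : d * (B6 - (d ^ 3 - B4 * d)) = 0 := by
      rw [h1] at h2
      linear_combination -h2
    rcases mul_eq_zero.1 this with h | h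
    · exact absurd h hd
    · exact sub_eq_zero.1 h
  -- `B6 ≠ 0`
  have hB6 : B6 ≠ 0 := by
    intro h0
    have hB8 : B8 = 0 := by rw [h1, h0]; ring
    have hB4 : B4 = 0 := by
      have : B4 ^ 2 = 0 := by
        rw [hB8, h0] at hb
        linear_combination hb
      exact pow_eq_zero_iff (two_ne_zero) |>.1 this
    rw [h0, hB4] at h6
    have : d ^ 3 = 0 := by linear_combination -h6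
    exact hd (pow_eq_zero_iff (by norm_num) |>.1 this)
  have hm : d ^ 2 - B4 ≠ 0 := by
    intro h0
    apply hB6
    rw [h6]
    linear_combination d * h0
  -- `B2 = (B4² + 4 B4 d² - 4 d⁴) / (d (d² - B4))`
  have hB2 : B2 = (B4 ^ 2 + 4 * B4 * d ^ 2 - 4 * d ^ 4) / (d * (d ^ 2 - B4)) := by
    rw [eq_div_iff (mul_ne_zero hd hm)]
    rw [h1, h6] at hb
    linear_combination -hb
  have key : (B2 ^ 2 - 24 * B4) ^ 3 * ((2 * B4 + d * B2 - 7 * d ^ 2) / d ^ 2) =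
      (((2 * B4 + d * B2 - 7 * d ^ 2) / d ^ 2) ^ 2 + 10 * ((2 * B4 + d * B2 - 7 * d ^ 2) / d ^ 2)
        + 5) ^ 3 * (-B2 ^ 2 * B8 - 8 * B4 ^ 3 - 27 * B6 ^ 2 + 9 * B2 * B4 * B6) := by
    rw [h1, h6, hB2]
    field_simp
    ring
  refine ⟨(2 * B4 + d * B2 - 7 * d ^ 2) / d ^ 2, ?_, ?_, key⟩
  · field_simp
  · intro h0
    rw [h0] at key
    apply hΔ
    have h125 : (5 : F) ^ 3 ≠ 0 := pow_ne_zero _ h5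
    have : (5 : F) ^ 3 * (-B2 ^ 2 * B8 - 8 * B4 ^ 3 - 27 * B6 ^ 2 + 9 * B2 * B4 * B6) = 0 := by
      linear_combination -key
    rcases mul_eq_zero.1 this with h | h
    · exact absurd h h125
    · exact h

/-- **F6** (general position).  `x₁ ≠ x₂` with `x(2P) = x₂`, `x(2 · 2P) = x₁` in the form
`φ₂(x₁) = x₂ ψ₂²(x₁)`, `φ₂(x₂) = x₁ ψ₂²(x₂)`.  Then `s² - 4t ≠ 0` and any `g` with
`g (s² - 4t) = 2 b₄ + s b₂ - 7 s² + 40 t` is nonzero and satisfies the `X₀(5)` relation. -/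
theorem five_alg_raw {F : Type*} [Field F] (h5 : (5 : F) ≠ 0) (b2 b4 b6 b8 x1 x2 : F)
    (hb : 4 * b8 = b2 * b6 - b4 ^ 2)
    (hΔ : -b2 ^ 2 * b8 - 8 * b4 ^ 3 - 27 * b6 ^ 2 + 9 * b2 * b4 * b6 ≠ 0)
    (h12 : x1 ≠ x2)
    (hD1 : x1 ^ 4 - b4 * x1 ^ 2 - 2 * b6 * x1 - b8 =
      x2 * (4 * x1 ^ 3 + b2 * x1 ^ 2 + 2 * b4 * x1 + b6))
    (hD2 : x2 ^ 4 - b4 * x2 ^ 2 - 2 * b6 * x2 - b8 =
      x1 * (4 * x2 ^ 3 + b2 * x2 ^ 2 + 2 * b4 * x2 + b6)) :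
    (x1 + x2) ^ 2 - 4 * (x1 * x2) ≠ 0 ∧
    ∀ g : F, g * ((x1 + x2) ^ 2 - 4 * (x1 * x2)) =
        2 * b4 + (x1 + x2) * b2 - 7 * (x1 + x2) ^ 2 + 40 * (x1 * x2) →
      g ≠ 0 ∧ (b2 ^ 2 - 24 * b4) ^ 3 * g = (g ^ 2 + 10 * g + 5) ^ 3 *
        (-b2 ^ 2 * b8 - 8 * b4 ^ 3 - 27 * b6 ^ 2 + 9 * b2 * b4 * b6) := by
  have hd : x2 - x1 ≠ 0 := sub_ne_zero.2 (Ne.symm h12)
  have hd2 : (x1 + x2) ^ 2 - 4 * (x1 * x2) = (x2 - x1) ^ 2 := by ring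
  refine ⟨by rw [hd2]; exact pow_ne_zero _ hd, ?_⟩
  intro g hg
  -- translated invariants
  have hΔeq : -(b2 + 12 * x1) ^ 2 * (b8 + 3 * x1 * b6 + 3 * x1 ^ 2 * b4 + x1 ^ 3 * b2 + 3 * x1 ^ 4) -
          8 * (b4 + x1 * b2 + 6 * x1 ^ 2) ^ 3 -
        27 * (b6 + 2 * x1 * b4 + x1 ^ 2 * b2 + 4 * x1 ^ 3) ^ 2 +
      9 * (b2 + 12 * x1) * (b4 + x1 * b2 + 6 * x1 ^ 2) *
        (b6 + 2 * x1 * b4 + x1 ^ 2 * b2 + 4 * x1 ^ 3) =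
      -b2 ^ 2 * b8 - 8 * b4 ^ 3 - 27 * b6 ^ 2 + 9 * b2 * b4 * b6 := by
    linear_combination (-(6 * b2 * x1 + 36 * x1 ^ 2)) * hb
  have hc4eq : (b2 + 12 * x1) ^ 2 - 24 * (b4 + x1 * b2 + 6 * x1 ^ 2) = b2 ^ 2 - 24 * b4 := by ring
  obtain ⟨g', hg', hg'0, hrel⟩ := five_alg_zero h5 (b2 + 12 * x1) (b4 + x1 * b2 + 6 * x1 ^ 2)
    (b6 + 2 * x1 * b4 + x1 ^ 2 * b2 + 4 * x1 ^ 3)
    (b8 + 3 * x1 * b6 + 3 * x1 ^ 2 * b4 + x1 ^ 3 * b2 + 3 * x1 ^ 4) (x2 - x1)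
    (by linear_combination hb)
    (by rw [hΔeq]; exact hΔ)
    hd
    (by linear_combination -hD1)
    (by linear_combination hD2)
  have hgg : g = g' := by
    have h1 : g * (x2 - x1) ^ 2 = g' * (x2 - x1) ^ 2 := by
      rw [hg', ← hd2, hg]
      ring
    exact mul_right_cancel₀ (pow_ne_zero _ hd) h1
  subst hgg
  refine ⟨hg'0, ?_⟩
  rw [hΔeq, hc4eq] at hrel
  exact hrel

/-! ### The two division-polynomial identities `Id1`, `Id2` (raw form) -/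

/-- **Id1** (raw): `ψ₂²(x(2P)) · ψ₂²(x)³ = preΨ₄(x)²`, denominators cleared. -/
theorem five_id1_raw {F : Type*} [Field F] (h2 : (2 : F) ≠ 0) (b2 b4 b6 b8 x : F)
    (hb : 4 * b8 = b2 * b6 - b4 ^ 2) :
    4 * (x ^ 4 - b4 * x ^ 2 - 2 * b6 * x - b8) ^ 3
      + b2 * (x ^ 4 - b4 * x ^ 2 - 2 * b6 * x - b8) ^ 2 * (4 * x ^ 3 + b2 * x ^ 2 + 2 * b4 * x + b6)
      + 2 * b4 * (x ^ 4 - b4 * x ^ 2 - 2 * b6 * x - b8) *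
          (4 * x ^ 3 + b2 * x ^ 2 + 2 * b4 * x + b6) ^ 2
      + b6 * (4 * x ^ 3 + b2 * x ^ 2 + 2 * b4 * x + b6) ^ 3
    = (2 * x ^ 6 + b2 * x ^ 5 + 5 * b4 * x ^ 4 + 10 * b6 * x ^ 3 + 10 * b8 * x ^ 2
        + (b2 * b8 - b4 * b6) * x + (b4 * b8 - b6 ^ 2)) ^ 2 := by
  have h4 : (4 : F) ≠ 0 := by
    have : (4 : F) = 2 * 2 := by norm_num
    rw [this]; exact mul_ne_zero h2 h2
  have h8 : b8 = (b2 * b6 - b4 ^ 2) / 4 := by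
    rw [eq_div_iff h4]
    linear_combination hb
  subst h8
  field_simp
  ring

set_option maxHeartbeats 1600000 in
/-- **Id2** (raw): `Φ₂(x(2P)) · ψ₂²(x)⁴ - x ψ₂²(x) preΨ₄(x)² = - Ψ₃(x) (preΨ₄ ψ₂⁴ - Ψ₃³)(x)`. -/
theorem five_id2_raw {F : Type*} [Field F] (h2 : (2 : F) ≠ 0) (b2 b4 b6 b8 x : F)
    (hb : 4 * b8 = b2 * b6 - b4 ^ 2) :
    (x ^ 4 - b4 * x ^ 2 - 2 * b6 * x - b8) ^ 4
      - b4 * (x ^ 4 - b4 * x ^ 2 - 2 * b6 * x - b8) ^ 2 *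
          (4 * x ^ 3 + b2 * x ^ 2 + 2 * b4 * x + b6) ^ 2
      - 2 * b6 * (x ^ 4 - b4 * x ^ 2 - 2 * b6 * x - b8) *
          (4 * x ^ 3 + b2 * x ^ 2 + 2 * b4 * x + b6) ^ 3
      - b8 * (4 * x ^ 3 + b2 * x ^ 2 + 2 * b4 * x + b6) ^ 4
      - x * (4 * x ^ 3 + b2 * x ^ 2 + 2 * b4 * x + b6) *
        (2 * x ^ 6 + b2 * x ^ 5 + 5 * b4 * x ^ 4 + 10 * b6 * x ^ 3 + 10 * b8 * x ^ 2
        + (b2 * b8 - b4 * b6) * x + (b4 * b8 - b6 ^ 2)) ^ 2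
    = -(3 * x ^ 4 + b2 * x ^ 3 + 3 * b4 * x ^ 2 + 3 * b6 * x + b8) *
      ((2 * x ^ 6 + b2 * x ^ 5 + 5 * b4 * x ^ 4 + 10 * b6 * x ^ 3 + 10 * b8 * x ^ 2
        + (b2 * b8 - b4 * b6) * x + (b4 * b8 - b6 ^ 2)) *
        (4 * x ^ 3 + b2 * x ^ 2 + 2 * b4 * x + b6) ^ 2
        - (3 * x ^ 4 + b2 * x ^ 3 + 3 * b4 * x ^ 2 + 3 * b6 * x + b8) ^ 3) := by
  have h4 : (4 : F) ≠ 0 := by
    have : (4 : F) = 2 * 2 := by norm_num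
    rw [this]; exact mul_ne_zero h2 h2
  have h8 : b8 = (b2 * b6 - b4 ^ 2) / 4 := by
    rw [eq_div_iff h4]
    linear_combination hb
  subst h8
  field_simp
  ring

/-! ### The same identities for Mathlib's division polynomials -/

section mathlib

open Polynomial

variable {F : Type*} [Field F] (W : WeierstrassCurve F)

lemma eval_Ψ₂Sq_eq (x : F) :
    W.Ψ₂Sq.eval x = 4 * x ^ 3 + W.b₂ * x ^ 2 + 2 * W.b₄ * x + W.b₆ := by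
  simp [WeierstrassCurve.Ψ₂Sq]

lemma eval_Φ_two_eq (x : F) :
    (W.Φ 2).eval x = x ^ 4 - W.b₄ * x ^ 2 - 2 * W.b₆ * x - W.b₈ := by
  simp [WeierstrassCurve.Φ_two]

lemma eval_Ψ₃_eq (x : F) :
    W.Ψ₃.eval x = 3 * x ^ 4 + W.b₂ * x ^ 3 + 3 * W.b₄ * x ^ 2 + 3 * W.b₆ * x + W.b₈ := by
  simp [WeierstrassCurve.Ψ₃]

lemma eval_preΨ₄_eq (x : F) :
    W.preΨ₄.eval x = 2 * x ^ 6 + W.b₂ * x ^ 5 + 5 * W.b₄ * x ^ 4 + 10 * W.b₆ * x ^ 3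
      + 10 * W.b₈ * x ^ 2 + (W.b₂ * W.b₈ - W.b₄ * W.b₆) * x + (W.b₄ * W.b₈ - W.b₆ ^ 2) := by
  simp [WeierstrassCurve.preΨ₄]

lemma preΨ'_five_eq : W.preΨ' 5 = W.preΨ₄ * W.Ψ₂Sq ^ 2 - W.Ψ₃ ^ 3 := by
  have h := W.preΨ'_odd 0
  simpa using h

lemma eval_preΨ'_five_eq (x : F) :
    (W.preΨ' 5).eval x = W.preΨ₄.eval x * W.Ψ₂Sq.eval x ^ 2 - W.Ψ₃.eval x ^ 3 := by
  rw [preΨ'_five_eq]; simp

/-- `Ψ₃ = X Ψ₂Sq - Φ₂`, evaluated. -/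
lemma eval_Ψ₃_eq_sub (x : F) : W.Ψ₃.eval x = x * W.Ψ₂Sq.eval x - (W.Φ 2).eval x := by
  rw [eval_Ψ₃_eq, eval_Ψ₂Sq_eq, eval_Φ_two_eq]; ring

/-- **Id1**: `Ψ₂Sq(Φ₂(x)/Ψ₂Sq(x)) · Ψ₂Sq(x)³ = preΨ₄(x)²`. -/
theorem five_id1 (h2 : (2 : F) ≠ 0) (x : F) (hf : W.Ψ₂Sq.eval x ≠ 0) :
    W.Ψ₂Sq.eval ((W.Φ 2).eval x / W.Ψ₂Sq.eval x) * W.Ψ₂Sq.eval x ^ 3 = W.preΨ₄.eval x ^ 2 := by
  have h := five_id1_raw h2 W.b₂ W.b₄ W.b₆ W.b₈ x W.b_relation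
  rw [← eval_Ψ₂Sq_eq, ← eval_Φ_two_eq, ← eval_preΨ₄_eq] at h
  rw [← h, eval_Ψ₂Sq_eq W ((W.Φ 2).eval x / W.Ψ₂Sq.eval x)]
  field_simp

/-- **Id2**: `Φ₂(Φ₂(x)/Ψ₂Sq(x)) · Ψ₂Sq(x)⁴ = x Ψ₂Sq(x) preΨ₄(x)² - Ψ₃(x) preΨ₅(x)` (`= Φ₄(x)`). -/
theorem five_id2 (h2 : (2 : F) ≠ 0) (x : F) (hf : W.Ψ₂Sq.eval x ≠ 0) :
    (W.Φ 2).eval ((W.Φ 2).eval x / W.Ψ₂Sq.eval x) * W.Ψ₂Sq.eval x ^ 4 =
      x * W.Ψ₂Sq.eval x * W.preΨ₄.eval x ^ 2 - W.Ψ₃.eval x * (W.preΨ' 5).eval x := by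
  have h := five_id2_raw h2 W.b₂ W.b₄ W.b₆ W.b₈ x W.b_relation
  rw [← eval_Ψ₂Sq_eq, ← eval_Φ_two_eq, ← eval_preΨ₄_eq, ← eval_Ψ₃_eq, ← eval_preΨ'_five_eq] at h
  rw [eval_Φ_two_eq W ((W.Φ 2).eval x / W.Ψ₂Sq.eval x)]
  field_simp
  linear_combination h

/-- Consequence used for `E[5] ≠ 0` and for the card bound: with `x₂ = Φ₂(x₁)/Ψ₂Sq(x₁)`,
`Φ₂(x₂) - x₁ Ψ₂Sq(x₂) = - Ψ₃(x₁) preΨ₅(x₁) / Ψ₂Sq(x₁)⁴`. -/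
theorem five_id3 (h2 : (2 : F) ≠ 0) (x : F) (hf : W.Ψ₂Sq.eval x ≠ 0) :
    ((W.Φ 2).eval ((W.Φ 2).eval x / W.Ψ₂Sq.eval x)
        - x * W.Ψ₂Sq.eval ((W.Φ 2).eval x / W.Ψ₂Sq.eval x)) * W.Ψ₂Sq.eval x ^ 4 =
      - (W.Ψ₃.eval x * (W.preΨ' 5).eval x) := by
  have h1 := five_id1 W h2 x hf
  have h2' := five_id2 W h2 x hf
  linear_combination h2' - x * W.Ψ₂Sq.eval x * h1

/-- **F6** for a Weierstrass curve: the `X₀(5)`-relation from `x₁ = x(P)`, `x₂ = x(2P)`. -/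
theorem five_alg_curve (h5 : (5 : F) ≠ 0) (hΔ : W.Δ ≠ 0) (x1 x2 : F) (h12 : x1 ≠ x2)
    (hD1 : (W.Φ 2).eval x1 = x2 * W.Ψ₂Sq.eval x1)
    (hD2 : (W.Φ 2).eval x2 = x1 * W.Ψ₂Sq.eval x2) :
    (x1 + x2) ^ 2 - 4 * (x1 * x2) ≠ 0 ∧
    ∀ g : F, g * ((x1 + x2) ^ 2 - 4 * (x1 * x2)) =
        2 * W.b₄ + (x1 + x2) * W.b₂ - 7 * (x1 + x2) ^ 2 + 40 * (x1 * x2) →
      g ≠ 0 ∧ W.c₄ ^ 3 * g = (g ^ 2 + 10 * g + 5) ^ 3 * W.Δ := by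
  rw [eval_Φ_two_eq, eval_Ψ₂Sq_eq] at hD1 hD2
  have hΔ' : -W.b₂ ^ 2 * W.b₈ - 8 * W.b₄ ^ 3 - 27 * W.b₆ ^ 2 + 9 * W.b₂ * W.b₄ * W.b₆ ≠ 0 := hΔ
  have := five_alg_raw h5 W.b₂ W.b₄ W.b₆ W.b₈ x1 x2 W.b_relation hΔ' h12 hD1 hD2
  exact this

end mathlib

/-! ### The contract form (helper1's `NOTES/S51_A5_statements.lean.txt`) -/

section contract

variable {K : Type*} [Field K] [CharZero K] (W : WeierstrassCurve K)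

omit [CharZero K] in
/-- The denominator of `g` is nonzero. -/
theorem five_alg_denom_ne_zero (x₁ x₂ : K) (hx : x₁ ≠ x₂) :
    (x₁ + x₂) ^ 2 - 4 * (x₁ * x₂) ≠ 0 := by
  have hd2 : (x₁ + x₂) ^ 2 - 4 * (x₁ * x₂) = (x₂ - x₁) ^ 2 := by ring
  rw [hd2]
  exact pow_ne_zero _ (sub_ne_zero.2 (Ne.symm hx))

/-- **F6**, contract form: `g ≠ 0` and the `X₀(5)` relation. -/
theorem five_alg_full (hΔ : W.Δ ≠ 0) (x₁ x₂ : K) (hx : x₁ ≠ x₂)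
    (h₁ : x₂ * f2 W x₁ = phi2 W x₁) (h₂ : x₁ * f2 W x₂ = phi2 W x₂) :
    (2 * W.b₄ + (x₁ + x₂) * W.b₂ - 7 * (x₁ + x₂) ^ 2 + 40 * (x₁ * x₂)) /
        ((x₁ + x₂) ^ 2 - 4 * (x₁ * x₂)) ≠ 0 ∧
    W.c₄ ^ 3 * ((2 * W.b₄ + (x₁ + x₂) * W.b₂ - 7 * (x₁ + x₂) ^ 2 + 40 * (x₁ * x₂)) /
        ((x₁ + x₂) ^ 2 - 4 * (x₁ * x₂))) =
      (((2 * W.b₄ + (x₁ + x₂) * W.b₂ - 7 * (x₁ + x₂) ^ 2 + 40 * (x₁ * x₂)) /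
        ((x₁ + x₂) ^ 2 - 4 * (x₁ * x₂))) ^ 2 +
        10 * ((2 * W.b₄ + (x₁ + x₂) * W.b₂ - 7 * (x₁ + x₂) ^ 2 + 40 * (x₁ * x₂)) /
        ((x₁ + x₂) ^ 2 - 4 * (x₁ * x₂))) + 5) ^ 3 * W.Δ := by
  have hΔ' : -W.b₂ ^ 2 * W.b₈ - 8 * W.b₄ ^ 3 - 27 * W.b₆ ^ 2 + 9 * W.b₂ * W.b₄ * W.b₆ ≠ 0 := hΔ
  have h5 : (5 : K) ≠ 0 := by norm_num
  simp only [f2, phi2] at h₁ h₂
  obtain ⟨hden, h⟩ := five_alg_raw h5 W.b₂ W.b₄ W.b₆ W.b₈ x₁ x₂ W.b_relation hΔ' hx h₁.symm h₂.symm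
  exact h _ (div_mul_cancel₀ _ hden)

/-- **F6**, exactly helper1's contract. -/
theorem five_alg (hΔ : W.Δ ≠ 0) (x₁ x₂ : K) (hx : x₁ ≠ x₂)
    (h₁ : x₂ * f2 W x₁ = phi2 W x₁) (h₂ : x₁ * f2 W x₂ = phi2 W x₂) :
    W.c₄ ^ 3 * ((2 * W.b₄ + (x₁ + x₂) * W.b₂ - 7 * (x₁ + x₂) ^ 2 + 40 * (x₁ * x₂)) /
        ((x₁ + x₂) ^ 2 - 4 * (x₁ * x₂))) =
      (((2 * W.b₄ + (x₁ + x₂) * W.b₂ - 7 * (x₁ + x₂) ^ 2 + 40 * (x₁ * x₂)) /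
        ((x₁ + x₂) ^ 2 - 4 * (x₁ * x₂))) ^ 2 +
        10 * ((2 * W.b₄ + (x₁ + x₂) * W.b₂ - 7 * (x₁ + x₂) ^ 2 + 40 * (x₁ * x₂)) /
        ((x₁ + x₂) ^ 2 - 4 * (x₁ * x₂))) + 5) ^ 3 * W.Δ :=
  (five_alg_full W hΔ x₁ x₂ hx h₁ h₂).2

/-- `g ≠ 0` in the contract situation. -/
theorem five_alg_ne_zero (hΔ : W.Δ ≠ 0) (x₁ x₂ : K) (hx : x₁ ≠ x₂)
    (h₁ : x₂ * f2 W x₁ = phi2 W x₁) (h₂ : x₁ * f2 W x₂ = phi2 W x₂) :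
    (2 * W.b₄ + (x₁ + x₂) * W.b₂ - 7 * (x₁ + x₂) ^ 2 + 40 * (x₁ * x₂)) /
        ((x₁ + x₂) ^ 2 - 4 * (x₁ * x₂)) ≠ 0 :=
  (five_alg_full W hΔ x₁ x₂ hx h₁ h₂).1

omit [CharZero K] in
/-- `f2`, `phi2`, `psi3` of `S51/Double.lean` are the evaluations of Mathlib's polynomials. -/
theorem f2_eq_eval (x : K) : f2 W x = W.Ψ₂Sq.eval x := (eval_Ψ₂Sq_eq W x).symm

omit [CharZero K] in
theorem phi2_eq_eval (x : K) : phi2 W x = (W.Φ 2).eval x := (eval_Φ_two_eq W x).symm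

omit [CharZero K] in
theorem psi3_eq_eval (x : K) : psi3 W x = W.Ψ₃.eval x := (eval_Ψ₃_eq W x).symm

end contract

end Fermat.Agent.S51
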