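import Mathlib
import Fermat.Agent.S51.Double
import Fermat.Agent.S51.FiveAlg

/-!
# S51, part A5/F5: existence of a point of order 5

Over an algebraically closed field of characteristic zero, a Weierstrass curve with nonzero
discriminant has a nonzero point `P` with `5 • P = 0`.

Proof: take a root `x₁` of the 5-division polynomial `ψ₅ = preΨ₄ Ψ₂Sq² - Ψ₃³` (degree 12), a point
`P = (x₁, y₁)` above it, and check `4 • P = - P` on `x`-coordinates with the doubling formula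
`x(2P) Ψ₂Sq(x) = Φ₂(x)` (`add_self_x`) and the identities `five_id1`, `five_id3`:
* `Ψ₂Sq(x(2P)) Ψ₂Sq(x)³ = preΨ₄(x)²`,
* `(Φ₂(x(2P)) - x Ψ₂Sq(x(2P))) Ψ₂Sq(x)⁴ = - Ψ₃(x) ψ₅(x)`.
-/

set_option autoImplicit false

open WeierstrassCurve Polynomial

namespace Fermat.Agent.S51

namespace FiveExists

section ring

variable {R : Type*} [CommRing R] (W : WeierstrassCurve R)

/-- `Ψ₂Sq'² = 2 Ψ₂Sq Ψ₂Sq'' - 16 Ψ₃` -/
theorem deriv_sq_eq (x : R) :
    (12 * x ^ 2 + 2 * W.b₂ * x + 2 * W.b₄) ^ 2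
      = 2 * f2 W x * (24 * x + 2 * W.b₂) - 16 * psi3 W x := by
  simp only [f2, psi3, WeierstrassCurve.b₂, WeierstrassCurve.b₄, WeierstrassCurve.b₆,
    WeierstrassCurve.b₈]
  ring

end ring

section field

variable {K : Type*} [Field K] (W : WeierstrassCurve K)

theorem f2_eq_eval (x : K) : f2 W x = W.Ψ₂Sq.eval x := (eval_Ψ₂Sq_eq W x).symm

theorem phi2_eq_eval (x : K) : phi2 W x = (W.Φ 2).eval x := (eval_Φ_two_eq W x).symm

theorem psi3_eq_eval (x : K) : psi3 W x = W.Ψ₃.eval x := (eval_Ψ₃_eq W x).symm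

/-- Id1 in homogeneous form -/
theorem id_one (h2 : (2 : K) ≠ 0) {x x₂ : K} (hf : f2 W x ≠ 0) (h : x₂ * f2 W x = phi2 W x) :
    f2 W x₂ * f2 W x ^ 3 = W.preΨ₄.eval x ^ 2 := by
  have hx₂ : x₂ = (W.Φ 2).eval x / W.Ψ₂Sq.eval x := by
    rw [← f2_eq_eval, ← phi2_eq_eval, ← h]
    field_simp
  rw [f2_eq_eval W x] at hf
  have := five_id1 W h2 x hf
  rw [← hx₂] at this
  rw [f2_eq_eval, f2_eq_eval]
  exact this

/-- Id3 in homogeneous form -/
theorem id_three (h2 : (2 : K) ≠ 0) {x x₂ : K} (hf : f2 W x ≠ 0) (h : x₂ * f2 W x = phi2 W x) :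
    (phi2 W x₂ - x * f2 W x₂) * f2 W x ^ 4 = - (psi3 W x * (W.preΨ' 5).eval x) := by
  have hx₂ : x₂ = (W.Φ 2).eval x / W.Ψ₂Sq.eval x := by
    rw [← f2_eq_eval, ← phi2_eq_eval, ← h]
    field_simp
  rw [f2_eq_eval W x] at hf
  have := five_id3 W h2 x hf
  rw [← hx₂] at this
  rw [f2_eq_eval, f2_eq_eval, phi2_eq_eval, psi3_eq_eval]
  exact this

/-- a common zero of `Ψ₂Sq` and `Ψ₃` is the `x`-coordinate of a singular point -/
theorem f2_ne_zero_of_psi3 [CharZero K] {x y : K} (h : W.toAffine.Nonsingular x y)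
    (h3 : psi3 W x = 0) : f2 W x ≠ 0 := by
  intro hf
  have hd := deriv_sq_eq W x
  rw [hf, h3] at hd
  have hd' : 12 * x ^ 2 + 2 * W.b₂ * x + 2 * W.b₄ = 0 := by
    have : (12 * x ^ 2 + 2 * W.b₂ * x + 2 * W.b₄) ^ 2 = 0 := by rw [hd]; ring
    exact pow_eq_zero_iff (n := 2) (by norm_num) |>.mp this
  have hy : 2 * y + W.a₁ * x + W.a₃ = 0 := by
    have := f2_eq_sq W h.1
    rw [hf] at this
    exact pow_eq_zero_iff (n := 2) (by norm_num) |>.mp this.symm
  rw [Affine.nonsingular_iff] at h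
  rcases h.2 with h1 | h1
  · apply h1
    have h4 : (4 : K) ≠ 0 := by norm_num
    apply mul_left_cancel₀ h4
    simp only [WeierstrassCurve.b₂, WeierstrassCurve.b₄] at hd'
    linear_combination 2 * W.a₁ * hy - hd'
  · apply h1
    linear_combination hy

end field

end FiveExists

open FiveExists in
/-- **F5**: over an algebraically closed field of characteristic zero, an elliptic curve has a
point of exact order `5`. -/
theorem exists_five_torsion {K : Type*} [Field K] [DecidableEq K] [IsAlgClosed K] [CharZero K]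
    (W : WeierstrassCurve K) (hΔ : W.Δ ≠ 0) :
    ∃ P : W.toAffine.Point, P ≠ 0 ∧ 5 • P = 0 := by
  have h2 : (2 : K) ≠ 0 := two_ne_zero
  have h5 : ((5 : ℕ) : K) ≠ 0 := by norm_num
  -- a root of `ψ₅`
  have hdeg : (W.preΨ' 5).degree ≠ 0 := by
    have hpos := W.natDegree_preΨ'_pos (n := 5) (by norm_num) h5
    intro h0
    have := natDegree_eq_zero_iff_degree_le_zero.mpr h0.le
    omega
  obtain ⟨x₁, hx₁⟩ := IsAlgClosed.exists_root (W.preΨ' 5) hdeg
  rw [IsRoot.def, eval_preΨ'_five_eq] at hx₁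
  -- a point above it
  obtain ⟨y₁, hy₁⟩ : ∃ y, W.toAffine.Equation x₁ y := by
    obtain ⟨s, hs⟩ := IsAlgClosed.exists_eq_mul_self
      (discrim (1 : K) (W.a₁ * x₁ + W.a₃) (-(x₁ ^ 3 + W.a₂ * x₁ ^ 2 + W.a₄ * x₁ + W.a₆)))
    obtain ⟨y, hy⟩ := exists_quadratic_eq_zero (one_ne_zero) ⟨s, hs⟩
    refine ⟨y, ?_⟩
    rw [Affine.equation_iff]
    linear_combination hy
  have hns : W.toAffine.Nonsingular x₁ y₁ :=
    (W.toAffine.equation_iff_nonsingular_of_Δ_ne_zero hΔ).mp hy₁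
  -- `Ψ₂Sq(x₁) ≠ 0`
  have hf1 : f2 W x₁ ≠ 0 := by
    intro hf
    have h3 : psi3 W x₁ = 0 := by
      rw [← f2_eq_eval, ← psi3_eq_eval, hf] at hx₁
      have : psi3 W x₁ ^ 3 = 0 := by linear_combination -hx₁
      exact pow_eq_zero_iff (n := 3) (by norm_num) |>.mp this
    exact f2_ne_zero_of_psi3 W hns h3 hf
  -- `Ψ₃(x₁) ≠ 0`
  have h31 : psi3 W x₁ ≠ 0 := by
    intro h3
    have hx : x₁ * f2 W x₁ = phi2 W x₁ := by
      have := psi3_eq W x₁
      rw [h3] at this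
      linear_combination -this
    have h1 := id_one W h2 hf1 hx
    rw [← f2_eq_eval, ← psi3_eq_eval, h3] at hx₁
    have h4 : W.preΨ₄.eval x₁ = 0 := by
      have : W.preΨ₄.eval x₁ * f2 W x₁ ^ 2 = 0 := by linear_combination hx₁
      rcases mul_eq_zero.mp this with h | h
      · exact h
      · exact absurd (pow_eq_zero_iff (n := 2) (by norm_num) |>.mp h) hf1
    rw [h4] at h1
    have : f2 W x₁ ^ 4 = 0 := by linear_combination h1
    exact hf1 (pow_eq_zero_iff (n := 4) (by norm_num) |>.mp this)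
  -- `preΨ₄(x₁) ≠ 0`
  have h41 : W.preΨ₄.eval x₁ ≠ 0 := by
    intro h4
    rw [← f2_eq_eval, ← psi3_eq_eval, h4] at hx₁
    have : psi3 W x₁ ^ 3 = 0 := by linear_combination -hx₁
    exact h31 (pow_eq_zero_iff (n := 3) (by norm_num) |>.mp this)
  -- the point `P` and its double
  set P : W.toAffine.Point := Affine.Point.some x₁ y₁ hns with hP
  have hP0 : P ≠ 0 := Affine.Point.some_ne_zero hns
  have h2P0 : P + P ≠ 0 := fun h0 => hf1 ((add_self_eq_zero_iff W hns).mp h0)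
  rcases h2P : P + P with _ | ⟨x₂, y₂, hns₂⟩
  · exact absurd h2P h2P0
  obtain ⟨e1, -⟩ := add_self_x W hns hns₂ h2P
  have hf2 : f2 W x₂ ≠ 0 := by
    intro hf
    have h1 := id_one W h2 hf1 e1
    rw [hf, zero_mul] at h1
    exact h41 (pow_eq_zero_iff (n := 2) (by norm_num) |>.mp h1.symm)
  set Q : W.toAffine.Point := Affine.Point.some x₂ y₂ hns₂ with hQ
  have h2Q0 : Q + Q ≠ 0 := fun h0 => hf2 ((add_self_eq_zero_iff W hns₂).mp h0)
  rcases h2Q : Q + Q with _ | ⟨x₄, y₄, hns₄⟩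
  · exact absurd h2Q h2Q0
  obtain ⟨e2, -⟩ := add_self_x W hns₂ hns₄ h2Q
  -- `x₄ = x₁`
  have hx41 : x₄ = x₁ := by
    have h3 := id_three W h2 hf1 e1
    rw [← f2_eq_eval, ← psi3_eq_eval] at hx₁
    have h0 : (phi2 W x₂ - x₁ * f2 W x₂) * f2 W x₁ ^ 4 = 0 := by
      rw [h3, eval_preΨ'_five_eq, ← f2_eq_eval, ← psi3_eq_eval, hx₁]
      ring
    have h0' : phi2 W x₂ - x₁ * f2 W x₂ = 0 := by
      rcases mul_eq_zero.mp h0 with h | h
      · exact h
      · exact absurd (pow_eq_zero_iff (n := 4) (by norm_num) |>.mp h) hf1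
    apply mul_right_cancel₀ hf2
    linear_combination e2 + h0'
  refine ⟨P, hP0, ?_⟩
  have h5P : 5 • P = (P + P) + (P + P) + P := by
    rw [show (5 : ℕ) = 2 + 2 + 1 from rfl, add_nsmul, add_nsmul, two_nsmul, one_nsmul]
  rw [h5P, h2P, h2Q]
  rcases (Affine.Point.X_eq_iff (h₁ := hns₄) (h₂ := hns)).mp hx41 with h | h
  · -- `4P = P`: then `3P = 0`, `2P = -P`, `x₂ = x₁`, `Ψ₃(x₁) = 0`
    exfalso
    have h3P : Q + P = 0 := by
      have : Q + Q = P := by rw [h2Q]; exact h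
      have h' : (Q + P) + P = P := by
        rw [add_assoc, h2P]; exact this
      exact add_eq_right.mp h'
    have hQP : Q = -P := eq_neg_of_add_eq_zero_left h3P
    have hx21 : x₂ = x₁ := by
      rw [hQ, hP, Affine.Point.neg_some] at hQP
      injection hQP with hx _
    apply h31
    rw [psi3_eq, ← e1, hx21]
    ring
  · rw [h, ← hP]
    exact neg_add_cancel P

end Fermat.Agent.S51
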