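import Mathlib
import Fermat.Prelude.Def_FLTPrelim_ModularRep
import Fermat.Prelude.Def_FLTPrelim_Modularity

/-!
# S51, part D: the four non-cuspidal rational points of `X₀(15)` are not semistable

`j = (g² + 10 g + 5)³ / g` with `g ∈ {-10, -25/8, -25/2, -40}` forces `5 ∣ c₄` and `5 ∣ Δ`.
-/

set_option autoImplicit false

namespace Fermat.Agent.S51

/-- If `A c³ = 5 B d` with `5 ∤ A` and `25 ∤ B`, then `5 ∣ c` and `5 ∣ d`. -/
lemma five_dvd_of_eq {c d A B : ℤ} (h : A * c ^ 3 = 5 * B * d) (hA : ¬ (5 : ℤ) ∣ A)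
    (hB : ¬ (25 : ℤ) ∣ B) : (5 : ℤ) ∣ c ∧ (5 : ℤ) ∣ d := by
  have h5 : Prime (5 : ℤ) := by norm_num
  have hc : (5 : ℤ) ∣ c := by
    have h1 : (5 : ℤ) ∣ A * c ^ 3 := ⟨B * d, by rw [h]; ring⟩
    rcases h5.dvd_or_dvd h1 with h2 | h2
    · exact absurd h2 hA
    · exact h5.dvd_of_dvd_pow h2
  refine ⟨hc, ?_⟩
  obtain ⟨k, rfl⟩ := hc
  have h2 : B * d = 25 * (A * k ^ 3) := by
    have : 5 * (B * d) = 5 * (25 * (A * k ^ 3)) := by rw [← mul_assoc, ← h]; ring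
    exact mul_left_cancel₀ (by norm_num) this
  by_contra hd
  have hcop : IsCoprime (25 : ℤ) d := by
    have : IsCoprime (5 : ℤ) d := (Prime.coprime_iff_not_dvd h5).2 hd
    have h25 : (25 : ℤ) = 5 ^ 2 := by norm_num
    rw [h25]
    exact this.pow_left
  exact hB (hcop.dvd_of_dvd_mul_right ⟨A * k ^ 3, h2⟩)

/-- D: the four `j`-invariants are not semistable. -/
theorem not_semistable (W : WeierstrassCurve ℤ) (hΔ : W.Δ ≠ 0) (hW : W.IsSemistableModel) (g : ℚ)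
    (hg : g = -10 ∨ g = -25 / 8 ∨ g = -25 / 2 ∨ g = -40)
    (hj : (W.c₄ : ℚ) ^ 3 * g = (g ^ 2 + 10 * g + 5) ^ 3 * (W.Δ : ℚ)) : False := by
  have key : ∃ A B : ℤ, A * W.c₄ ^ 3 = 5 * B * W.Δ ∧ ¬ (5 : ℤ) ∣ A ∧ ¬ (25 : ℤ) ∣ B := by
    rcases hg with rfl | rfl | rfl | rfl
    · refine ⟨-2, 5, ?_, by norm_num, by norm_num⟩
      have : ((-2 : ℤ) : ℚ) * (W.c₄ : ℚ) ^ 3 = 5 * 5 * (W.Δ : ℚ) := by
        push_cast
        linear_combination (1 / 5 : ℚ) * hj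
      exact_mod_cast this
    · refine ⟨32768, 9393931, ?_, by norm_num, by norm_num⟩
      have : ((32768 : ℤ) : ℚ) * (W.c₄ : ℚ) ^ 3 = 5 * 9393931 * (W.Δ : ℚ) := by
        push_cast
        linear_combination (-262144 / 25 : ℚ) * hj
      exact_mod_cast this
    · refine ⟨-32, 24389, ?_, by norm_num, by norm_num⟩
      have : ((-32 : ℤ) : ℚ) * (W.c₄ : ℚ) ^ 3 = 5 * 24389 * (W.Δ : ℚ) := by
        push_cast
        linear_combination (64 / 25 : ℚ) * hj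
      exact_mod_cast this
    · refine ⟨-8, 69987605, ?_, by norm_num, by norm_num⟩
      have : ((-8 : ℤ) : ℚ) * (W.c₄ : ℚ) ^ 3 = 5 * 69987605 * (W.Δ : ℚ) := by
        push_cast
        linear_combination (1 / 5 : ℚ) * hj
      exact_mod_cast this
  obtain ⟨A, B, h, hA, hB⟩ := key
  obtain ⟨hc, hd⟩ := five_dvd_of_eq h hA hB
  exact hW 5 (by norm_num) (by exact_mod_cast hd) (by exact_mod_cast hc)

end Fermat.Agent.S51
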