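import Fermat.Agent.S51.ModEq
import Fermat.Agent.S51.NotSemistable

/-!
# S51, part E: assembly of S51 from the parts A3, A5, C (as hypotheses), B and D (proved)
-/

set_option autoImplicit false

namespace Fermat.Agent.S51

/-- The contract form of part C follows from its `x`-only form. -/
theorem xvalues_of_rational_points
    (C : ∀ x y : ℚ, y ^ 2 = x * (x + 9) * (x - 16) →
      (x = 0 ∧ y = 0) ∨ (x = -9 ∧ y = 0) ∨ (x = 16 ∧ y = 0) ∨
        (x = -4 ∧ (y = 20 ∨ y = -20)) ∨ (x = 36 ∧ (y = 180 ∨ y = -180)))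
    (x y : ℚ) (h : y ^ 2 = x * (x + 9) * (x - 16)) :
    x = 0 ∨ x = -9 ∨ x = 16 ∨ x = -4 ∨ x = 36 := by
  rcases C x y h with h0 | h0 | h0 | h0 | h0
  · exact Or.inl h0.1
  · exact Or.inr (Or.inl h0.1)
  · exact Or.inr (Or.inr (Or.inl h0.1))
  · exact Or.inr (Or.inr (Or.inr (Or.inl h0.1)))
  · exact Or.inr (Or.inr (Or.inr (Or.inr h0.1)))

/-- **S51 from its parts**: `A3` (a rational point of `X₀(3)` from a reducible mod 3
representation), `A5` (same for 5) and `C` (rational points of `y² = x (x + 9) (x - 16)`). -/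
theorem s51_of_parts (W : WeierstrassCurve ℤ) (hΔ : W.Δ ≠ 0) (hW : W.IsSemistableModel)
    (A3 : ¬ W.ModRepIsIrreducible 3 →
      ∃ h : ℚ, h ≠ 0 ∧ (W.c₄ : ℚ) ^ 3 * h = (h + 27) * (h + 3) ^ 3 * (W.Δ : ℚ))
    (A5 : ¬ W.ModRepIsIrreducible 5 →
      ∃ g : ℚ, g ≠ 0 ∧ (W.c₄ : ℚ) ^ 3 * g = (g ^ 2 + 10 * g + 5) ^ 3 * (W.Δ : ℚ))
    (C : ∀ x y : ℚ, y ^ 2 = x * (x + 9) * (x - 16) →
      x = 0 ∨ x = -9 ∨ x = 16 ∨ x = -4 ∨ x = 36) :
    W.ModRepIsIrreducible 3 ∨ W.ModRepIsIrreducible 5 := by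
  by_contra hcon
  push Not at hcon
  obtain ⟨h, hh, h3⟩ := A3 hcon.1
  obtain ⟨g, hg, h5⟩ := A5 hcon.2
  have hΔ' : (W.Δ : ℚ) ≠ 0 := by exact_mod_cast hΔ
  have hΦ : (h + 27) * (h + 3) ^ 3 * g = (g ^ 2 + 10 * g + 5) ^ 3 * h := by
    apply mul_right_cancel₀ hΔ'
    linear_combination g * (-h3) + h * h5
  exact not_semistable W hΔ hW g (modular_equation_of C h g hh hg hΦ) h5

end Fermat.Agent.S51
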