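import Mathlib

/-!
# S51, part C-c: the rational points of `y² = x (x + 9) (x - 16)` from the descent

`rational_points_of_descent`: if the only rational point with `x > 16` has `x = 36`
(the output of the descent, parts C-a + C-b), then the rational points of
`y² = x (x + 9) (x - 16)` are `(0,0), (-9,0), (16,0), (-4,±20), (36,±180)`.
Ingredients: sign analysis and the involution `x ↦ -144 / x` (translation by `(0,0)`).
-/

set_option autoImplicit false

namespace Fermat.Agent.S51

/-- translation by the `2`-torsion point `(0,0)` -/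
theorem translate_zero_mem {x y : ℚ} (hx : x ≠ 0) (h : y ^ 2 = x * (x + 9) * (x - 16)) :
    (144 * y / x ^ 2) ^ 2 = (-144 / x) * (-144 / x + 9) * (-144 / x - 16) := by
  field_simp
  linear_combination (144 : ℚ) * h

theorem eq_of_sq_eq_sq_const {y c : ℚ} (h : y ^ 2 = c ^ 2) : y = c ∨ y = -c := by
  have h1 : (y - c) * (y + c) = 0 := by ring_nf; linear_combination h
  rcases mul_eq_zero.mp h1 with h2 | h2
  · left; linarith
  · right; linarith

/-- **C-c**: the rational points of `y² = x(x+9)(x-16)`, given the descent. -/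
theorem rational_points_of_descent
    (H : ∀ x : ℚ, 16 < x → (∃ y : ℚ, y ^ 2 = x * (x + 9) * (x - 16)) → x = 36)
    (x y : ℚ) (h : y ^ 2 = x * (x + 9) * (x - 16)) :
    (x = 0 ∧ y = 0) ∨ (x = -9 ∧ y = 0) ∨ (x = 16 ∧ y = 0) ∨
      (x = -4 ∧ (y = 20 ∨ y = -20)) ∨ (x = 36 ∧ (y = 180 ∨ y = -180)) := by
  rcases eq_or_ne y 0 with hy | hy
  · subst hy
    have h0 : x * (x + 9) * (x - 16) = 0 := by rw [← h]; ring
    rcases mul_eq_zero.mp h0 with h1 | h1
    · rcases mul_eq_zero.mp h1 with h2 | h2
      · exact Or.inl ⟨h2, rfl⟩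
      · exact Or.inr (Or.inl ⟨by linarith, rfl⟩)
    · exact Or.inr (Or.inr (Or.inl ⟨by linarith, rfl⟩))
  · have hpos : 0 < x * (x + 9) * (x - 16) := by
      rw [← h]; positivity
    rcases lt_or_ge 16 x with hx | hx
    · -- `x > 16`
      have hx36 := H x hx ⟨y, h⟩
      subst hx36
      refine Or.inr (Or.inr (Or.inr (Or.inr ⟨rfl, ?_⟩)))
      apply eq_of_sq_eq_sq_const
      rw [h]; norm_num
    · -- `x ≤ 16`, so `-9 < x < 0`
      have hx0 : x < 0 := by
        by_contra hcon
        push Not at hcon
        have : x * (x + 9) * (x - 16) ≤ 0 :=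
          mul_nonpos_of_nonneg_of_nonpos (mul_nonneg hcon (by linarith)) (by linarith)
        linarith
      have hx9 : -9 < x := by
        by_contra hcon
        push Not at hcon
        have h1 : 0 ≤ x * (x + 9) := mul_nonneg_of_nonpos_of_nonpos hx0.le (by linarith)
        have : x * (x + 9) * (x - 16) ≤ 0 :=
          mul_nonpos_of_nonneg_of_nonpos h1 (by linarith)
        linarith
      have hxne : x ≠ 0 := hx0.ne
      have hbig : 16 < -144 / x := by
        rw [lt_div_iff_of_neg hx0]
        linarith
      have h36 := H (-144 / x) hbig ⟨144 * y / x ^ 2, translate_zero_mem hxne h⟩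
      have hx4 : x = -4 := by
        field_simp at h36
        linarith
      subst hx4
      refine Or.inr (Or.inr (Or.inr (Or.inl ⟨rfl, ?_⟩)))
      apply eq_of_sq_eq_sq_const
      rw [h]; norm_num

end Fermat.Agent.S51
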