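import Mathlib

/-!
# S51, part C-a: the six congruence kills of the 2-Selmer elimination

For the curve `y² = x (x + 9) (x - 16)` and a rational point with `x = M / E²` in lowest
terms, the three factors are `M = 2^a 3^b A²`, `M + 9 E² = 3^b 5^c B²`,
`M - 16 E² = 2^a 5^c C²`.  Here we show that the classes with `a = 1` or `b = 1` are
impossible (pure congruences modulo 3, 5 and 16).
-/

namespace Fermat.Agent.S51

/-- modulo 3: `x² + y² = 0` forces `y = 0`. -/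
theorem kill_zmod3_sq_add_sq : ∀ x y : ZMod 3, x ^ 2 + y ^ 2 = 0 → y = 0 := by decide

/-- modulo 3: `2 x² = y²` forces `x = 0`. -/
theorem kill_zmod3_two_sq : ∀ x y : ZMod 3, 2 * x ^ 2 = y ^ 2 → x = 0 ∧ y = 0 := by decide

/-- modulo 5: `x² + 3 y² = 0` forces `x = y = 0`. -/
theorem kill_zmod5_sq_add_three_sq : ∀ x y : ZMod 5, x ^ 2 + 3 * y ^ 2 = 0 →
    x = 0 ∧ y = 0 := by
  decide

/-- modulo 16: `x² = y² + 8 z²` with `z` odd forces `x` odd. -/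
theorem kill_zmod16_odd : ∀ x y z : ZMod 16, 8 * z ≠ 0 → x ^ 2 = y ^ 2 + 8 * z ^ 2 →
    8 * x ≠ 0 := by decide

/-- modulo 16: `2 x² + 9 z² = w²` is impossible for odd `x`, `z`. -/
theorem kill_zmod16_sq : ∀ x z w : ZMod 16, 8 * x ≠ 0 → 8 * z ≠ 0 →
    2 * x ^ 2 + 9 * z ^ 2 ≠ w ^ 2 := by decide

/-- modulo 8: `2 x² + 9 z² = 5 w²` is impossible for odd `z`. -/
theorem kill_zmod8_sq : ∀ x z w : ZMod 8, 4 * z ≠ 0 →
    2 * x ^ 2 + 9 * z ^ 2 ≠ 5 * w ^ 2 := by decide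

/-- An odd natural number `E` has `8 E ≠ 0` modulo 16. -/
theorem kill_eight_mul_ne_zero {E : ℕ} (hE : ¬ 2 ∣ E) : (8 : ZMod 16) * (E : ZMod 16) ≠ 0 := by
  intro h
  have h' : ((8 * E : ℕ) : ZMod 16) = 0 := by push_cast; exact h
  rw [ZMod.natCast_eq_zero_iff] at h'
  exact hE (by omega)

/-- An odd natural number `E` has `4 E ≠ 0` modulo 8. -/
theorem kill_four_mul_ne_zero {E : ℕ} (hE : ¬ 2 ∣ E) : (4 : ZMod 8) * (E : ZMod 8) ≠ 0 := by
  intro h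
  have h' : ((4 * E : ℕ) : ZMod 8) = 0 := by push_cast; exact h
  rw [ZMod.natCast_eq_zero_iff] at h'
  exact hE (by omega)

/-- class `(a, b, c) = (0, 1, 0)`. -/
theorem kill_010 (A E C : ℕ) (hco : Nat.Coprime (3 * A ^ 2) E)
    (h2 : 3 * A ^ 2 = C ^ 2 + 16 * E ^ 2) : False := by
  have h := congrArg (Nat.cast : ℕ → ZMod 3) h2
  push_cast at h
  have h3 : ((3 : ℕ) : ZMod 3) = 0 := ZMod.natCast_self 3
  have h16 : ((16 : ℕ) : ZMod 3) = 1 := by decide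
  have h3' : (3 : ZMod 3) = 0 := by exact_mod_cast h3
  have h16' : (16 : ZMod 3) = 1 := by exact_mod_cast h16
  rw [h3', h16', zero_mul, one_mul] at h
  have hE : (E : ZMod 3) = 0 := kill_zmod3_sq_add_sq _ _ h.symm
  rw [ZMod.natCast_eq_zero_iff] at hE
  have := Nat.eq_one_of_dvd_coprimes hco (Dvd.intro _ rfl) hE
  omega

/-- class `(a, b, c) = (0, 1, 1)`. -/
theorem kill_011 (A E B : ℕ) (hco : Nat.Coprime (3 * A ^ 2) E)
    (h1 : 3 * A ^ 2 + 9 * E ^ 2 = 3 * 5 * B ^ 2) : False := by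
  have h1' : A ^ 2 + 3 * E ^ 2 = 5 * B ^ 2 := by omega
  have h := congrArg (Nat.cast : ℕ → ZMod 5) h1'
  push_cast at h
  have h5 : ((5 : ℕ) : ZMod 5) = 0 := ZMod.natCast_self 5
  have h5' : (5 : ZMod 5) = 0 := by exact_mod_cast h5
  rw [h5', zero_mul] at h
  obtain ⟨hA, hE⟩ := kill_zmod5_sq_add_three_sq _ _ h
  rw [ZMod.natCast_eq_zero_iff] at hE hA
  have := Nat.eq_one_of_dvd_coprimes hco (Dvd.dvd.mul_left (dvd_pow hA two_ne_zero) 3) hE
  omega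

/-- class `(a, b, c) = (1, 0, 0)`. -/
theorem kill_100 (A E B C : ℕ) (hco : Nat.Coprime (2 * A ^ 2) E)
    (h1 : 2 * A ^ 2 + 9 * E ^ 2 = B ^ 2)
    (h2 : 2 * A ^ 2 = 2 * C ^ 2 + 16 * E ^ 2) : False := by
  have hE : ¬ 2 ∣ E := fun h => by
    have := Nat.eq_one_of_dvd_coprimes hco (Dvd.intro _ rfl) h
    omega
  have h2' : A ^ 2 = C ^ 2 + 8 * E ^ 2 := by omega
  have h := congrArg (Nat.cast : ℕ → ZMod 16) h2'
  have h' := congrArg (Nat.cast : ℕ → ZMod 16) h1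
  push_cast at h h'
  exact kill_zmod16_sq _ _ _ (kill_zmod16_odd _ _ _ (kill_eight_mul_ne_zero hE) h)
    (kill_eight_mul_ne_zero hE) h'

/-- class `(a, b, c) = (1, 0, 1)`. -/
theorem kill_101 (A E B : ℕ) (hco : Nat.Coprime (2 * A ^ 2) E)
    (h1 : 2 * A ^ 2 + 9 * E ^ 2 = 5 * B ^ 2) : False := by
  have hE : ¬ 2 ∣ E := fun h => by
    have := Nat.eq_one_of_dvd_coprimes hco (Dvd.intro _ rfl) h
    omega
  have h' := congrArg (Nat.cast : ℕ → ZMod 8) h1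
  push_cast at h'
  exact kill_zmod8_sq _ _ _ (kill_four_mul_ne_zero hE) h'

/-- class `(a, b, c) = (1, 1, 0)`. -/
theorem kill_110 (A E B : ℕ) (hco : Nat.Coprime (2 * 3 * A ^ 2) E)
    (h1 : 2 * 3 * A ^ 2 + 9 * E ^ 2 = 3 * B ^ 2) : False := by
  have h1' : 2 * A ^ 2 + 3 * E ^ 2 = B ^ 2 := by omega
  have h := congrArg (Nat.cast : ℕ → ZMod 3) h1'
  push_cast at h
  have h3 : ((3 : ℕ) : ZMod 3) = 0 := ZMod.natCast_self 3
  have h3' : (3 : ZMod 3) = 0 := by exact_mod_cast h3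
  rw [h3', zero_mul, add_zero] at h
  obtain ⟨hA, hB⟩ := kill_zmod3_two_sq _ _ h
  rw [ZMod.natCast_eq_zero_iff] at hA hB
  obtain ⟨A', rfl⟩ := hA
  obtain ⟨B', rfl⟩ := hB
  have hE2 : 3 ∣ E ^ 2 := by
    have : 3 * E ^ 2 = 9 * B' ^ 2 - 18 * A' ^ 2 := by
      have e1 : (3 * A') ^ 2 = 9 * A' ^ 2 := by ring
      have e2 : (3 * B') ^ 2 = 9 * B' ^ 2 := by ring
      omega
    have : E ^ 2 = 3 * (B' ^ 2 - 2 * A' ^ 2) := by omega
    exact Dvd.intro _ this.symm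
  have hE : 3 ∣ E := Nat.Prime.dvd_of_dvd_pow Nat.prime_three hE2
  have := Nat.eq_one_of_dvd_coprimes hco (Dvd.intro (2 * (3 * A') ^ 2) (by ring)) hE
  omega

/-- class `(a, b, c) = (1, 1, 1)`. -/
theorem kill_111 (A E C : ℕ) (hco : Nat.Coprime (2 * 3 * A ^ 2) E)
    (h2 : 2 * 3 * A ^ 2 = 2 * 5 * C ^ 2 + 16 * E ^ 2) : False := by
  have h2' : 3 * A ^ 2 = 5 * C ^ 2 + 8 * E ^ 2 := by omega
  have h := congrArg (Nat.cast : ℕ → ZMod 3) h2'
  push_cast at h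
  have h3 : ((3 : ℕ) : ZMod 3) = 0 := ZMod.natCast_self 3
  have h3' : (3 : ZMod 3) = 0 := by exact_mod_cast h3
  have h5 : (5 : ZMod 3) = 2 := by decide
  have h8 : (8 : ZMod 3) = 2 := by decide
  rw [h3', h5, h8, zero_mul] at h
  have h'' : (C : ZMod 3) ^ 2 + (E : ZMod 3) ^ 2 = 0 := by
    have h2inv : (2 : ZMod 3) * 2 = 1 := by decide
    calc (C : ZMod 3) ^ 2 + (E : ZMod 3) ^ 2
        = (2 * 2) * ((C : ZMod 3) ^ 2 + (E : ZMod 3) ^ 2) := by rw [h2inv, one_mul]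
      _ = 2 * (2 * (C : ZMod 3) ^ 2 + 2 * (E : ZMod 3) ^ 2) := by ring
      _ = 0 := by rw [← h, mul_zero]
  have hE : (E : ZMod 3) = 0 := kill_zmod3_sq_add_sq _ _ h''
  rw [ZMod.natCast_eq_zero_iff] at hE
  have := Nat.eq_one_of_dvd_coprimes hco (Dvd.intro (2 * A ^ 2) (by ring)) hE
  omega

/-- **The six congruence kills.**  With `M = 2^a 3^b A²` the numerator and `E²` the
denominator of `x`, the classes `(2^a 3^b, 3^b 5^c, 2^a 5^c)` with `a = 1` or `b = 1` do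
not occur. -/
theorem normalForm_kill (A E B C a b c : ℕ) (ha : a ≤ 1) (hb : b ≤ 1) (hc : c ≤ 1)
    (hab : a = 1 ∨ b = 1)
    (hco : Nat.Coprime (2 ^ a * 3 ^ b * A ^ 2) E)
    (h1 : 2 ^ a * 3 ^ b * A ^ 2 + 9 * E ^ 2 = 3 ^ b * 5 ^ c * B ^ 2)
    (h2 : 2 ^ a * 3 ^ b * A ^ 2 = 2 ^ a * 5 ^ c * C ^ 2 + 16 * E ^ 2) : False := by
  interval_cases a <;> interval_cases b <;> interval_cases c
  · simp at hab
  · simp at hab
  · exact kill_010 A E C (by simpa using hco) (by simpa using h2)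
  · exact kill_011 A E B (by simpa using hco) (by simpa using h1)
  · exact kill_100 A E B C (by simpa using hco) (by simpa using h1) (by simpa using h2)
  · exact kill_101 A E B (by simpa using hco) (by simpa using h1)
  · exact kill_110 A E B (by simpa using hco) (by simpa using h1)
  · exact kill_111 A E C (by simpa using hco) (by simpa using h2)

end Fermat.Agent.S51
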