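import Mathlib

/-!
# S51, part C-b: the descent on `y² = x (x + 9) (x - 16)`

Input (part C-a, `NormalForm`): every rational point with `x > 16` has
`x = A² / E²` in lowest terms with `A² + 9 E² = d B²`, `A² - 16 E² = d C²`, `d ∈ {1, 5}`
(the two classes of the `2`-descent that survive the local conditions).

Output (`descent_of_normalForm`): the only rational point with `x > 16` has `x = 36`.

The descent step: a point `P` in one of the two classes is `P = 2 Q` resp. `P = 2 Q + T`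
with `Q` rational, `x(Q) > 16`, and the numerator of `x(Q)` is `< 18 A`, which is `≤ A²`
as soon as `A ≥ 18`.  The finitely many `A < 18` are enumerated.
-/

set_option autoImplicit false
set_option linter.unusedVariables false

namespace Fermat.Agent.S51

/-- The output of the `2`-descent (part C-a): the shape of the `x`-coordinate of a rational
point with `x > 16` on `y² = x (x + 9) (x - 16)`. -/
def NormalForm : Prop :=
  ∀ x : ℚ, 16 < x → (∃ y : ℚ, y ^ 2 = x * (x + 9) * (x - 16)) →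
    ∃ (A E B C d : ℕ), (d = 1 ∨ d = 5) ∧ 0 < E ∧ 0 < C ∧ Nat.Coprime A E ∧
      (x = (A : ℚ) ^ 2 / (E : ℚ) ^ 2) ∧
      A ^ 2 + 9 * E ^ 2 = d * B ^ 2 ∧ A ^ 2 = d * C ^ 2 + 16 * E ^ 2

/-! ### generalities -/

namespace DStep

theorem num_le_of_eq_div {x : ℚ} {n m : ℤ} (hn : 0 < n) (hm : m ≠ 0)
    (hx : x = (n : ℚ) / (m : ℚ)) : x.num ≤ n := by
  have h := Rat.num_dvd n hm
  rw [Rat.divInt_eq_div, ← hx] at h
  exact Int.le_of_dvd hn h

theorem num_sq_div_sq {A E : ℕ} (hE : 0 < E) (hAE : Nat.Coprime A E) :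
    ((A : ℚ) ^ 2 / (E : ℚ) ^ 2).num = (A : ℤ) ^ 2 := by
  have h := Rat.num_div_eq_of_coprime (a := (A : ℤ) ^ 2) (b := (E : ℤ) ^ 2) (by positivity)
    (by
      rw [Int.natAbs_pow, Int.natAbs_pow, Int.natAbs_natCast, Int.natAbs_natCast]
      exact Nat.Coprime.pow 2 2 hAE)
  push_cast at h
  exact h

theorem lt_of_sq_lt_sq_aux {u v : ℚ} (hv : 0 ≤ v) (h : u ^ 2 < v ^ 2) : u < v := by
  by_contra hcon
  push Not at hcon
  have := mul_le_mul hcon hcon hv (hv.trans hcon)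
  nlinarith

/-! ### the class `d = 1`: halving -/

section one

variable {a e b c : ℚ}

theorem step_one_key (h1 : a ^ 2 + 9 * e ^ 2 = b ^ 2) (h2 : a ^ 2 = c ^ 2 + 16 * e ^ 2) :
    (a + c) * (b + c) * (b - a) = e ^ 2 * (25 * a + 9 * c - 16 * b) := by
  linear_combination (-(a + c)) * h1 + (-(b - a)) * h2

theorem step_one_curve (he : e ≠ 0) (hba : b - a ≠ 0)
    (h1 : a ^ 2 + 9 * e ^ 2 = b ^ 2) (h2 : a ^ 2 = c ^ 2 + 16 * e ^ 2) :
    (9 * (a + c) * (b + c) / ((b - a) * e)) ^ 2 =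
      (9 * (a + c) / (b - a)) * (9 * (a + c) / (b - a) + 9) * (9 * (a + c) / (b - a) - 16) := by
  have key := step_one_key h1 h2
  have h9 : 9 * (a + c) / (b - a) + 9 = 9 * (b + c) / (b - a) := by field_simp; ring
  have h16 : 9 * (a + c) / (b - a) - 16 = (25 * a + 9 * c - 16 * b) / (b - a) := by
    field_simp; ring
  rw [h9, h16]
  field_simp
  linear_combination ((a + c) * (b + c)) * key

theorem step_one_lt (ha : 0 < a) (he : 0 < e) (hb : 0 < b)
    (h1 : a ^ 2 + 9 * e ^ 2 = b ^ 2) : a < b := by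
  by_contra h
  push Not at h
  have := mul_le_mul h h hb.le ha.le
  nlinarith [sq_pos_of_pos he]

theorem step_one_gt (ha : 0 < a) (he : 0 < e) (hb : 0 < b) (hc : 0 < c)
    (h1 : a ^ 2 + 9 * e ^ 2 = b ^ 2) (h2 : a ^ 2 = c ^ 2 + 16 * e ^ 2) :
    16 < 9 * (a + c) / (b - a) := by
  have hba : 0 < b - a := sub_pos.mpr (step_one_lt ha he hb h1)
  have h25 : 16 * b < 25 * a := by
    by_contra h
    push Not at h
    have := mul_le_mul h h (by positivity) (by positivity)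
    nlinarith [sq_pos_of_pos he, sq_pos_of_pos hc]
  rw [lt_div_iff₀ hba]
  linarith

theorem step_one_ne (he : 0 < e) (hc : 0 < c) (hba : b - a ≠ 0)
    (h1 : a ^ 2 + 9 * e ^ 2 = b ^ 2) (h2 : a ^ 2 = c ^ 2 + 16 * e ^ 2) :
    9 * (a + c) / (b - a) ≠ 36 := by
  intro h
  rw [div_eq_iff hba] at h
  have hC : c = 4 * b - 5 * a := by linarith
  have hab : a * b = a ^ 2 + 4 * e ^ 2 := by
    subst hC
    linear_combination (1 / 40 : ℚ) * h2 + (-2 / 5 : ℚ) * h1
  have h0 : (a ^ 2 - 16 * e ^ 2) * e ^ 2 = 0 := by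
    linear_combination (a * b + a ^ 2 + 4 * e ^ 2) * hab + a ^ 2 * h1
  have h3 : a ^ 2 - 16 * e ^ 2 = c ^ 2 := by linarith
  rw [h3] at h0
  have : 0 < c ^ 2 * e ^ 2 := by positivity
  linarith

end one

/-! ### the class `d = 5`: halving after translation by a point of order `4` -/

section five

variable {a e b c : ℚ}

theorem step_five_key (h1 : a ^ 2 + 9 * e ^ 2 = 5 * b ^ 2)
    (h2 : a ^ 2 = 5 * c ^ 2 + 16 * e ^ 2) :
    (3 * a * b + 8 * a * c - 25 * a * e - 25 * b * c + 32 * b * e + 27 * c * e) ^ 2 =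
      (3 * a - 8 * e - 5 * c) * (3 * b - 2 * c - 5 * e) * (5 * a - 8 * b - 3 * c) *
        (5 * b - 2 * a - 3 * e) := by
  linear_combination
    (-(-72 * a ^ 2 + 72 * a * b + 72 * a * c + 72 * a * e - 120 * b * c - 192 * b * e
        + 160 * c ^ 2 + 8 * c * e + 640 * e ^ 2)) * h1
    + (-(72 * a ^ 2 - 162 * a * b - 12 * a * c + 78 * a * e + 30 * b * c - 168 * b * e
        - 18 * c * e + 360 * e ^ 2)) * h2

theorem curve_of_key {n1 n2 n3 D w : ℚ} (hD : D ≠ 0) (h9 : 6 * n1 + 9 * D = 15 * n2)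
    (h16 : 6 * n1 - 16 * D = 10 * n3) (key : w ^ 2 = n1 * n2 * n3 * D) :
    (30 * w / D ^ 2) ^ 2 = (6 * n1 / D) * (6 * n1 / D + 9) * (6 * n1 / D - 16) := by
  have e9 : 6 * n1 / D + 9 = 15 * n2 / D := by rw [← h9]; field_simp
  have e16 : 6 * n1 / D - 16 = 10 * n3 / D := by rw [← h16]; field_simp
  rw [e9, e16]
  field_simp
  linear_combination (900 : ℚ) * key

theorem step_five_curve (hden : 5 * b - 2 * a - 3 * e ≠ 0)
    (h1 : a ^ 2 + 9 * e ^ 2 = 5 * b ^ 2) (h2 : a ^ 2 = 5 * c ^ 2 + 16 * e ^ 2) :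
    (30 * (3 * a * b + 8 * a * c - 25 * a * e - 25 * b * c + 32 * b * e + 27 * c * e) /
        (5 * b - 2 * a - 3 * e) ^ 2) ^ 2 =
      (6 * (3 * a - 8 * e - 5 * c) / (5 * b - 2 * a - 3 * e)) *
        (6 * (3 * a - 8 * e - 5 * c) / (5 * b - 2 * a - 3 * e) + 9) *
        (6 * (3 * a - 8 * e - 5 * c) / (5 * b - 2 * a - 3 * e) - 16) :=
  curve_of_key hden (n2 := 3 * b - 2 * c - 5 * e) (n3 := 5 * a - 8 * b - 3 * c)
    (by ring) (by ring) (step_five_key h1 h2)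

theorem step_five_a_gt (ha : 0 < a) (he : 0 < e) (hc : 0 < c)
    (h2 : a ^ 2 = 5 * c ^ 2 + 16 * e ^ 2) : 4 * e < a := by
  apply lt_of_sq_lt_sq_aux ha.le
  nlinarith [sq_pos_of_pos hc]

theorem step_five_c_lt (ha : 0 < a) (he : 0 < e) (hc : 0 < c)
    (h2 : a ^ 2 = 5 * c ^ 2 + 16 * e ^ 2) : c < a := by
  apply lt_of_sq_lt_sq_aux ha.le
  nlinarith [sq_pos_of_pos hc, sq_pos_of_pos he]

theorem step_five_sq_pos (hne : a ≠ 6 * e) : 0 < (a - 6 * e) ^ 2 :=
  sq_pos_of_ne_zero (sub_ne_zero.mpr hne)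

theorem step_five_den_pos (hb : 0 < b) (hne : a ≠ 6 * e)
    (h1 : a ^ 2 + 9 * e ^ 2 = 5 * b ^ 2) : 0 < 5 * b - 2 * a - 3 * e := by
  have h := step_five_sq_pos hne
  have : 2 * a + 3 * e < 5 * b := by
    apply lt_of_sq_lt_sq_aux (by positivity)
    nlinarith
  linarith

theorem step_five_n1_pos (ha : 0 < a) (he : 0 < e) (hc : 0 < c) (hne : a ≠ 6 * e)
    (h2 : a ^ 2 = 5 * c ^ 2 + 16 * e ^ 2) : 0 < 3 * a - 8 * e - 5 * c := by
  have h := step_five_sq_pos hne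
  have h4 := step_five_a_gt ha he hc h2
  have : 5 * c < 3 * a - 8 * e := by
    apply lt_of_sq_lt_sq_aux (by linarith)
    nlinarith
  linarith

theorem step_five_ne_three (he : 0 < e) (hc : 0 < c) (hne : a ≠ 6 * e)
    (h2 : a ^ 2 = 5 * c ^ 2 + 16 * e ^ 2) : a ≠ 3 * c := by
  intro h
  subst h
  have h3 : (c - 2 * e) * (c + 2 * e) = 0 := by linear_combination (1 / 4 : ℚ) * h2
  rcases mul_eq_zero.mp h3 with h4 | h4
  · exact hne (by linarith)
  · linarith

theorem step_five_n3_pos (ha : 0 < a) (he : 0 < e) (hc : 0 < c) (hne : a ≠ 6 * e)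
    (h1 : a ^ 2 + 9 * e ^ 2 = 5 * b ^ 2) (h2 : a ^ 2 = 5 * c ^ 2 + 16 * e ^ 2) :
    0 < 5 * a - 8 * b - 3 * c := by
  have h3 : 0 < (a - 3 * c) ^ 2 :=
    sq_pos_of_ne_zero (sub_ne_zero.mpr (step_five_ne_three he hc hne h2))
  have hca := step_five_c_lt ha he hc h2
  have : 8 * b < 5 * a - 3 * c := by
    apply lt_of_sq_lt_sq_aux (by linarith)
    nlinarith
  linarith

theorem step_five_gt (ha : 0 < a) (he : 0 < e) (hb : 0 < b) (hc : 0 < c) (hne : a ≠ 6 * e)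
    (h1 : a ^ 2 + 9 * e ^ 2 = 5 * b ^ 2) (h2 : a ^ 2 = 5 * c ^ 2 + 16 * e ^ 2) :
    16 < 6 * (3 * a - 8 * e - 5 * c) / (5 * b - 2 * a - 3 * e) := by
  have hD := step_five_den_pos hb hne h1
  have h3 := step_five_n3_pos ha he hc hne h1 h2
  rw [lt_div_iff₀ hD]
  linarith

theorem step_five_ne (ha : 0 < a) (he : 0 < e) (hne : a ≠ 6 * e)
    (hden : 5 * b - 2 * a - 3 * e ≠ 0)
    (h1 : a ^ 2 + 9 * e ^ 2 = 5 * b ^ 2) (h2 : a ^ 2 = 5 * c ^ 2 + 16 * e ^ 2) :
    6 * (3 * a - 8 * e - 5 * c) / (5 * b - 2 * a - 3 * e) ≠ 36 := by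
  intro h
  rw [div_eq_iff hden] at h
  have hC : c = 3 * a + 2 * e - 6 * b := by linarith
  subst hC
  have hB : 3 * b * (3 * a + 2 * e) = 4 * a ^ 2 + 3 * a * e + 18 * e ^ 2 := by
    linear_combination (1 / 20 : ℚ) * h2 + (-9 / 5 : ℚ) * h1
  have h0 : (a - 6 * e) ^ 3 * (a + 6 * e) = 0 := by
    linear_combination
      (5 * (4 * a ^ 2 + 3 * a * e + 18 * e ^ 2 + 3 * b * (3 * a + 2 * e))) * hB
      + (9 * (3 * a + 2 * e) ^ 2) * h1
  rcases mul_eq_zero.mp h0 with h3 | h3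
  · exact hne (sub_eq_zero.mp (pow_eq_zero_iff (by norm_num) |>.mp h3))
  · linarith

end five

/-! ### the descent step, in natural numbers -/

theorem descent_step_one (A E B C : ℕ) (hE : 0 < E) (hC : 0 < C) (hA : 18 ≤ A)
    (h1 : A ^ 2 + 9 * E ^ 2 = B ^ 2) (h2 : A ^ 2 = C ^ 2 + 16 * E ^ 2) :
    ∃ x' : ℚ, 16 < x' ∧ (∃ y' : ℚ, y' ^ 2 = x' * (x' + 9) * (x' - 16)) ∧ x' ≠ 36 ∧
      x'.num < (A : ℤ) ^ 2 := by
  have hA0 : 0 < A := by omega
  have hB0 : 0 < B := by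
    rcases Nat.eq_zero_or_pos B with h | h
    · subst h; nlinarith
    · exact h
  have ha : (0 : ℚ) < A := by exact_mod_cast hA0
  have he : (0 : ℚ) < E := by exact_mod_cast hE
  have hb : (0 : ℚ) < B := by exact_mod_cast hB0
  have hc : (0 : ℚ) < C := by exact_mod_cast hC
  have h1q : (A : ℚ) ^ 2 + 9 * (E : ℚ) ^ 2 = (B : ℚ) ^ 2 := by exact_mod_cast h1
  have h2q : (A : ℚ) ^ 2 = (C : ℚ) ^ 2 + 16 * (E : ℚ) ^ 2 := by exact_mod_cast h2
  have hlt : (A : ℚ) < B := step_one_lt ha he hb h1q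
  have hba : (B : ℚ) - A ≠ 0 := (sub_pos.mpr hlt).ne'
  have hCA : C < A := by
    by_contra h
    push Not at h
    have := Nat.mul_le_mul h h
    nlinarith
  refine ⟨9 * ((A : ℚ) + C) / ((B : ℚ) - A), step_one_gt ha he hb hc h1q h2q,
    ⟨_, step_one_curve he.ne' hba h1q h2q⟩, step_one_ne he hc hba h1q h2q, ?_⟩
  have hm : ((B : ℤ) - A) ≠ 0 := by
    intro h
    apply hba
    exact_mod_cast h
  have hn : (0 : ℤ) < 9 * ((A : ℤ) + C) := by positivity
  have hle := num_le_of_eq_div (x := 9 * ((A : ℚ) + C) / ((B : ℚ) - A)) hn hm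
    (by push_cast; ring)
  have hCA' : (C : ℤ) < A := by exact_mod_cast hCA
  have hA' : (18 : ℤ) ≤ A := by exact_mod_cast hA
  nlinarith

theorem descent_step_five (A E B C : ℕ) (hE : 0 < E) (hC : 0 < C) (hA : 18 ≤ A)
    (hne : A ≠ 6 * E)
    (h1 : A ^ 2 + 9 * E ^ 2 = 5 * B ^ 2) (h2 : A ^ 2 = 5 * C ^ 2 + 16 * E ^ 2) :
    ∃ x' : ℚ, 16 < x' ∧ (∃ y' : ℚ, y' ^ 2 = x' * (x' + 9) * (x' - 16)) ∧ x' ≠ 36 ∧
      x'.num < (A : ℤ) ^ 2 := by
  have hA0 : 0 < A := by omega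
  have hB0 : 0 < B := by
    rcases Nat.eq_zero_or_pos B with h | h
    · subst h; nlinarith
    · exact h
  have ha : (0 : ℚ) < A := by exact_mod_cast hA0
  have he : (0 : ℚ) < E := by exact_mod_cast hE
  have hb : (0 : ℚ) < B := by exact_mod_cast hB0
  have hc : (0 : ℚ) < C := by exact_mod_cast hC
  have hneq : (A : ℚ) ≠ 6 * E := by exact_mod_cast hne
  have h1q : (A : ℚ) ^ 2 + 9 * (E : ℚ) ^ 2 = 5 * (B : ℚ) ^ 2 := by exact_mod_cast h1
  have h2q : (A : ℚ) ^ 2 = 5 * (C : ℚ) ^ 2 + 16 * (E : ℚ) ^ 2 := by exact_mod_cast h2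
  have hD := step_five_den_pos hb hneq h1q
  have hN := step_five_n1_pos ha he hc hneq h2q
  refine ⟨6 * (3 * (A : ℚ) - 8 * E - 5 * C) / (5 * (B : ℚ) - 2 * A - 3 * E),
    step_five_gt ha he hb hc hneq h1q h2q,
    ⟨_, step_five_curve hD.ne' h1q h2q⟩, step_five_ne ha he hneq hD.ne' h1q h2q, ?_⟩
  have hm : (5 * (B : ℤ) - 2 * A - 3 * E) ≠ 0 := by
    intro h
    apply hD.ne'
    exact_mod_cast h
  have hn : (0 : ℤ) < 6 * (3 * (A : ℤ) - 8 * E - 5 * C) := by
    have : (0 : ℚ) < ((6 * (3 * (A : ℤ) - 8 * E - 5 * C) : ℤ) : ℚ) := by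
      push_cast; linarith
    exact_mod_cast this
  have hle := num_le_of_eq_div
    (x := 6 * (3 * (A : ℚ) - 8 * E - 5 * C) / (5 * (B : ℚ) - 2 * A - 3 * E)) hn hm
    (by push_cast; ring)
  have hE' : (0 : ℤ) < E := by exact_mod_cast hE
  have hC' : (0 : ℤ) < C := by exact_mod_cast hC
  have hA' : (18 : ℤ) ≤ A := by exact_mod_cast hA
  nlinarith

/-! ### the base case -/

theorem descent_base_one (A E B C : ℕ) (hE : 0 < E) (hC : 0 < C) (hA : A < 18)
    (h1 : A ^ 2 + 9 * E ^ 2 = B ^ 2) (h2 : A ^ 2 = C ^ 2 + 16 * E ^ 2) : False := by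
  have hsq1 : IsSquare (A ^ 2 + 9 * E ^ 2) := ⟨B, by rw [h1]; ring⟩
  have hE4 : E < 5 := by nlinarith
  have hAE : 4 * E < A := by nlinarith
  clear h1 h2
  interval_cases E <;> interval_cases A <;> norm_num at hsq1

theorem descent_base_five (A E B C : ℕ) (hE : 0 < E) (hC : 0 < C) (hA : A < 18)
    (hco : Nat.Coprime A E)
    (h1 : A ^ 2 + 9 * E ^ 2 = 5 * B ^ 2) (h2 : A ^ 2 = 5 * C ^ 2 + 16 * E ^ 2) :
    A = 6 ∧ E = 1 := by
  have hsq1 : IsSquare (5 * (A ^ 2 + 9 * E ^ 2)) := ⟨5 * B, by rw [h1]; ring⟩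
  have hE4 : E < 5 := by nlinarith
  have hAE : 4 * E < A := by nlinarith
  clear h1 h2
  interval_cases E <;> interval_cases A <;>
    first
      | exact ⟨rfl, rfl⟩
      | (norm_num at hco; done)
      | norm_num at hsq1

end DStep

/-! ### the descent -/

open DStep

/-- The descent on the tuples of `NormalForm`: the only one is `(A, E) = (6, 1)`. -/
theorem descent_tuple (hNF : NormalForm) :
    ∀ (n A E B C d : ℕ), A ≤ n → (d = 1 ∨ d = 5) → 0 < E → 0 < C → Nat.Coprime A E →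
      A ^ 2 + 9 * E ^ 2 = d * B ^ 2 → A ^ 2 = d * C ^ 2 + 16 * E ^ 2 → A = 6 ∧ E = 1 := by
  intro n
  induction n with
  | zero =>
    intro A E B C d hAn hd hE hC hco h1 h2
    have hA0 : A = 0 := by omega
    subst hA0
    rcases hd with rfl | rfl <;> nlinarith
  | succ n ih =>
    intro A E B C d hAn hd hE hC hco h1 h2
    rcases Nat.lt_or_ge A 18 with hA | hA
    · rcases hd with rfl | rfl
      · exact (descent_base_one A E B C hE hC hA (by simpa using h1) (by simpa using h2)).elim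
      · exact descent_base_five A E B C hE hC hA hco h1 h2
    · -- the descent step
      have hstep : ∃ x' : ℚ, 16 < x' ∧ (∃ y' : ℚ, y' ^ 2 = x' * (x' + 9) * (x' - 16)) ∧
          x' ≠ 36 ∧ x'.num < (A : ℤ) ^ 2 := by
        rcases hd with rfl | rfl
        · exact descent_step_one A E B C hE hC hA (by simpa using h1) (by simpa using h2)
        · refine descent_step_five A E B C hE hC hA ?_ h1 h2
          intro h6
          rw [h6] at hco
          have hE1 : E = 1 := by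
            have := Nat.Coprime.eq_one_of_dvd hco.symm (Dvd.intro_left 6 rfl)
            exact this
          omega
      obtain ⟨x', hx16, hy, hx36, hnum⟩ := hstep
      obtain ⟨A', E', B', C', d', hd', hE', hC', hco', hx', h1', h2'⟩ := hNF x' hx16 hy
      have hnum' : x'.num = (A' : ℤ) ^ 2 := by rw [hx']; exact num_sq_div_sq hE' hco'
      rw [hnum'] at hnum
      have hlt : A' < A := by
        have h3 : ((A' ^ 2 : ℕ) : ℤ) < ((A ^ 2 : ℕ) : ℤ) := by push_cast; exact hnum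
        have h4 : A' ^ 2 < A ^ 2 := by exact_mod_cast h3
        exact lt_of_pow_lt_pow_left₀ 2 (Nat.zero_le _) h4
      obtain ⟨hA6, hE1⟩ := ih A' E' B' C' d' (by omega) hd' hE' hC' hco' h1' h2'
      exfalso
      apply hx36
      rw [hx', hA6, hE1]
      norm_num

/-- **C-b**: the descent.  Given the normal form of the `2`-descent, the only rational point
of `y² = x (x + 9) (x - 16)` with `x > 16` has `x = 36`. -/
theorem descent_of_normalForm (hNF : NormalForm) :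
    ∀ x : ℚ, 16 < x → (∃ y : ℚ, y ^ 2 = x * (x + 9) * (x - 16)) → x = 36 := by
  intro x hx hy
  obtain ⟨A, E, B, C, d, hd, hE, hC, hco, hxe, h1, h2⟩ := hNF x hx hy
  obtain ⟨hA6, hE1⟩ := descent_tuple hNF A A E B C d le_rfl hd hE hC hco h1 h2
  rw [hxe, hA6, hE1]
  norm_num

end Fermat.Agent.S51
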