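import Fermat.Agent.S51.DescentNF
import Fermat.Agent.S51.DescentKill
import Fermat.Agent.S51.DescentStep
import Fermat.Agent.S51.DescentAssembly

/-!
# S51, part C: the rational points of `y² = x (x + 9) (x - 16)`

Glue of C-a (`normalForm_of_kill`, `normalForm_kill`), C-b (`descent_of_normalForm`) and
C-c (`rational_points_of_descent`): the curve `y² = x (x + 9) (x - 16)` (a model of `X₀(15)`)
has exactly the rational points `(0,0), (-9,0), (16,0), (-4,±20), (36,±180)`.
-/

set_option autoImplicit false

namespace Fermat.Agent.S51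

/-- **C-a**: the normal form (2-descent image) of a rational point with `x > 16`. -/
theorem normalForm_holds : NormalForm :=
  normalForm_of_kill normalForm_kill

/-- **C**: the rational points of `y² = x (x + 9) (x - 16)`. -/
theorem rational_points (x y : ℚ) (h : y ^ 2 = x * (x + 9) * (x - 16)) :
    (x = 0 ∧ y = 0) ∨ (x = -9 ∧ y = 0) ∨ (x = 16 ∧ y = 0) ∨
      (x = -4 ∧ (y = 20 ∨ y = -20)) ∨ (x = 36 ∧ (y = 180 ∨ y = -180)) :=
  rational_points_of_descent (descent_of_normalForm normalForm_holds) x y h

/-- **C**, `x`-values only (the form used by part B, `modular_equation_of`). -/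
theorem rational_points_x (x y : ℚ) (h : y ^ 2 = x * (x + 9) * (x - 16)) :
    x = 0 ∨ x = -9 ∨ x = 16 ∨ x = -4 ∨ x = 36 := by
  rcases rational_points x y h with h0 | h0 | h0 | h0 | h0
  · exact Or.inl h0.1
  · exact Or.inr (Or.inl h0.1)
  · exact Or.inr (Or.inr (Or.inl h0.1))
  · exact Or.inr (Or.inr (Or.inr (Or.inl h0.1)))
  · exact Or.inr (Or.inr (Or.inr (Or.inr h0.1)))

end Fermat.Agent.S51
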