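import Mathlib
import Fermat.Agent.S51.TorsionLib

/-!
# S51, part A5, step F4: `E[5]` has at most `25` points

For a nonzero point `P = (x₁, y₁)` with `5 • P = 0` put `x₂ = x(2 • P)`.  The doubling formula on
`x`-coordinates gives `φ₂(x₁) = x₂ f(x₁)` and `φ₂(x₂) = x₁ f(x₂)` where
`f = 4 X³ + b₂ X² + 2 b₄ X + b₆` and `φ₂ = X⁴ - b₄ X² - 2 b₆ X - b₈`.  Hence `x₁` is a root of
the polynomial `fiveG` of degree `16` with leading coefficient `-15`, so that there are at most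
`2 * 16 + 1 = 33 < 125` points in `E[5]`, and therefore at most `25`.

* `fiveG_eval_eq_zero`: the two doubling relations imply `fiveG(x₁) = 0`;
* `natDegree_fiveG`, `fiveG_ne_zero`: `fiveG` has degree `16` if `15 ≠ 0`;
* `card_le_sq_of_five_smul`: a finite abelian group killed by `5` with fewer than `125` elements
  has at most `25` elements;
* `card_torsionBy_five_le_of`: the bound `|E[5]| ≤ 5 ^ 2`, given the doubling relations.
-/

set_option autoImplicit false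

open Polynomial

namespace Fermat.Agent.S51

section poly

variable {F : Type*} [CommRing F] (b2 b4 b6 b8 : F)

/-- `f = 4 X³ + b₂ X² + 2 b₄ X + b₆` -/
noncomputable def fiveF : F[X] := C 4 * X ^ 3 + C b2 * X ^ 2 + C (2 * b4) * X + C b6

/-- `φ₂ = X⁴ - b₄ X² - 2 b₆ X - b₈` -/
noncomputable def fivePhi : F[X] := X ^ 4 - C b4 * X ^ 2 - C (2 * b6) * X - C b8

/-- the polynomial `f⁴ (φ₂(φ₂/f) - X f(φ₂/f))` of degree `16`, with leading coefficient `-15`;
it kills the `x`-coordinates of the points of order `5` -/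
noncomputable def fiveG : F[X] :=
  fivePhi b4 b6 b8 ^ 4 - C b4 * fivePhi b4 b6 b8 ^ 2 * fiveF b2 b4 b6 ^ 2
    - C (2 * b6) * fivePhi b4 b6 b8 * fiveF b2 b4 b6 ^ 3 - C b8 * fiveF b2 b4 b6 ^ 4
    - X * fiveF b2 b4 b6 * (C 4 * fivePhi b4 b6 b8 ^ 3
      + C b2 * fivePhi b4 b6 b8 ^ 2 * fiveF b2 b4 b6
      + C (2 * b4) * fivePhi b4 b6 b8 * fiveF b2 b4 b6 ^ 2 + C b6 * fiveF b2 b4 b6 ^ 3)

theorem fiveF_eval (x : F) :
    (fiveF b2 b4 b6).eval x = 4 * x ^ 3 + b2 * x ^ 2 + 2 * b4 * x + b6 := by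
  simp [fiveF]

theorem fivePhi_eval (x : F) :
    (fivePhi b4 b6 b8).eval x = x ^ 4 - b4 * x ^ 2 - 2 * b6 * x - b8 := by
  simp [fivePhi]

/-- the two doubling relations `φ₂(x₁) = x₂ f(x₁)` and `φ₂(x₂) = x₁ f(x₂)` imply
`fiveG(x₁) = 0` -/
theorem fiveG_eval_eq_zero {x1 x2 : F}
    (h1 : x1 ^ 4 - b4 * x1 ^ 2 - 2 * b6 * x1 - b8
      = x2 * (4 * x1 ^ 3 + b2 * x1 ^ 2 + 2 * b4 * x1 + b6))
    (h2 : x2 ^ 4 - b4 * x2 ^ 2 - 2 * b6 * x2 - b8
      = x1 * (4 * x2 ^ 3 + b2 * x2 ^ 2 + 2 * b4 * x2 + b6)) :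
    (fiveG b2 b4 b6 b8).eval x1 = 0 := by
  have e : (fiveG b2 b4 b6 b8).eval x1 =
      (fivePhi b4 b6 b8).eval x1 ^ 4
        - b4 * (fivePhi b4 b6 b8).eval x1 ^ 2 * (fiveF b2 b4 b6).eval x1 ^ 2
        - 2 * b6 * (fivePhi b4 b6 b8).eval x1 * (fiveF b2 b4 b6).eval x1 ^ 3
        - b8 * (fiveF b2 b4 b6).eval x1 ^ 4
        - x1 * (fiveF b2 b4 b6).eval x1 * (4 * (fivePhi b4 b6 b8).eval x1 ^ 3
          + b2 * (fivePhi b4 b6 b8).eval x1 ^ 2 * (fiveF b2 b4 b6).eval x1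
          + 2 * b4 * (fivePhi b4 b6 b8).eval x1 * (fiveF b2 b4 b6).eval x1 ^ 2
          + b6 * (fiveF b2 b4 b6).eval x1 ^ 3) := by
    simp [fiveG]
  rw [e, fivePhi_eval, fiveF_eval, h1]
  linear_combination (4 * x1 ^ 3 + b2 * x1 ^ 2 + 2 * b4 * x1 + b6) ^ 4 * h2

theorem natDegree_fiveG_le : (fiveG b2 b4 b6 b8).natDegree ≤ 16 := by
  unfold fiveG fivePhi fiveF
  compute_degree

end poly

section field

variable {F : Type*} [Field F] (b2 b4 b6 b8 : F)

theorem natDegree_fiveG (h15 : (15 : F) ≠ 0) : (fiveG b2 b4 b6 b8).natDegree = 16 := by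
  unfold fiveG fivePhi fiveF
  compute_degree
  · exact neg_ne_zero.mpr h15
  all_goals norm_num

theorem fiveG_ne_zero (h15 : (15 : F) ≠ 0) : fiveG b2 b4 b6 b8 ≠ 0 := by
  intro h
  have := natDegree_fiveG b2 b4 b6 b8 h15
  rw [h, natDegree_zero] at this
  omega

end field

section group

/-- a finite abelian group killed by `5` with fewer than `125` elements has at most `25`
elements -/
theorem card_le_sq_of_five_smul {G : Type*} [AddCommGroup G] [Finite G]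
    (h5 : ∀ x : G, (5 : ℕ) • x = 0) (hcard : Nat.card G < 125) : Nat.card G ≤ 5 ^ 2 := by
  classical
  have : Fact (Nat.Prime 5) := ⟨by norm_num⟩
  let _ : Module (ZMod 5) G := AddCommGroup.zmodModule h5
  have : Fintype G := Fintype.ofFinite G
  have hfin : Module.Finite (ZMod 5) G := Module.Finite.of_finite
  have h1 : Fintype.card G = 5 ^ Module.finrank (ZMod 5) G := by
    rw [Module.card_eq_pow_finrank (K := ZMod 5) (V := G), ZMod.card]
  rw [Nat.card_eq_fintype_card, h1] at hcard ⊢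
  have h2 : Module.finrank (ZMod 5) G < 3 := by
    by_contra h
    push Not at h
    have := Nat.pow_le_pow_right (by norm_num : 0 < 5) h
    omega
  exact Nat.pow_le_pow_right (by norm_num) (by omega)

end group

section curve

variable {F : Type*} [Field F] [DecidableEq F] (E : WeierstrassCurve.Affine F)

open WeierstrassCurve in
/-- **F4**: `E[5]` has at most `5 ^ 2` points, given the doubling relations on
`x`-coordinates for the points of order `5` -/
theorem card_torsionBy_five_le_of (h15 : (15 : F) ≠ 0)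
    (hF3 : ∀ (x y : F) (hxy : E.Nonsingular x y),
      ((5 : ℕ) : ℤ) • (Affine.Point.some x y hxy : E.Point) = 0 →
      ∃ x2 : F,
        x ^ 4 - E.b₄ * x ^ 2 - 2 * E.b₆ * x - E.b₈
          = x2 * (4 * x ^ 3 + E.b₂ * x ^ 2 + 2 * E.b₄ * x + E.b₆) ∧
        x2 ^ 4 - E.b₄ * x2 ^ 2 - 2 * E.b₆ * x2 - E.b₈
          = x * (4 * x2 ^ 3 + E.b₂ * x2 ^ 2 + 2 * E.b₄ * x2 + E.b₆)) :
    Finite (Submodule.torsionBy ℤ E.Point ((5 : ℕ) : ℤ)) ∧
      Nat.card (Submodule.torsionBy ℤ E.Point ((5 : ℕ) : ℤ)) ≤ 5 ^ 2 := by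
  obtain ⟨hfin, hcard⟩ := card_torsionBy_le E 5 (fiveG_ne_zero E.b₂ E.b₄ E.b₆ E.b₈ h15)
    (fun x y hxy h => by
      obtain ⟨x2, h1, h2⟩ := hF3 x y hxy h
      exact fiveG_eval_eq_zero E.b₂ E.b₄ E.b₆ E.b₈ h1 h2)
  refine ⟨hfin, ?_⟩
  rw [natDegree_fiveG E.b₂ E.b₄ E.b₆ E.b₈ h15] at hcard
  refine card_le_sq_of_five_smul (fun P => ?_) (by omega)
  have := P.2
  rw [Submodule.mem_torsionBy_iff] at this
  apply Subtype.ext
  rw [Submodule.coe_smul_of_tower, Submodule.coe_zero, ← this]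
  exact (natCast_zsmul _ _).symm

end curve

end Fermat.Agent.S51
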