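import Mathlib
import Fermat.Agent.S51.FiveCard
import Fermat.Agent.S51.Double
import Fermat.Prelude.Def_FLTPrelim_ModularRep

/-!
# S51, part A5, step F4 (final form): `E[5]` has at most `25` points

`card_torsionBy_five_le`: for a Weierstrass curve `W` over a field in which `15 ≠ 0`, the group
of `5`-torsion points is finite with at most `5 ^ 2` elements.  (No hypothesis on `Δ`.)
-/

set_option autoImplicit false

open WeierstrassCurve

namespace Fermat.Agent.S51

variable {K : Type*} [Field K] [DecidableEq K] (W : WeierstrassCurve K)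

/-- **F4**: `E[5]` is finite with at most `5 ^ 2` points (over a field with `15 ≠ 0`) -/
theorem card_torsionBy_five_le (h15 : (15 : K) ≠ 0) :
    Finite (Submodule.torsionBy ℤ W.toAffine.Point ((5 : ℕ) : ℤ)) ∧
      Nat.card (Submodule.torsionBy ℤ W.toAffine.Point ((5 : ℕ) : ℤ)) ≤ 5 ^ 2 := by
  refine card_torsionBy_five_le_of W.toAffine h15 (fun x y hxy h => ?_)
  rw [natCast_zsmul] at h
  obtain ⟨x₂, y₂, h₂, -, -, -, -, -, -, e1, e2⟩ := five_torsion_coords W hxy h
  refine ⟨x₂, ?_, ?_⟩
  · simpa only [f2, phi2] using e1.symm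
  · simpa only [f2, phi2] using e2.symm

/-- `E[5]` is finite with at most `5 ^ 2` points in characteristic zero -/
theorem card_torsionBy_five_le_of_charZero [CharZero K] :
    Finite (Submodule.torsionBy ℤ W.toAffine.Point ((5 : ℕ) : ℤ)) ∧
      Nat.card (Submodule.torsionBy ℤ W.toAffine.Point ((5 : ℕ) : ℤ)) ≤ 5 ^ 2 :=
  card_torsionBy_five_le W (by norm_num)

/-- **F4**, exact contract form (`NOTES/S51_A5_statements.lean.txt`) -/
theorem card_five_torsion_le [CharZero K] :
    Finite (Submodule.torsionBy ℤ W.toAffine.Point 5) ∧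
      Nat.card (Submodule.torsionBy ℤ W.toAffine.Point 5) ≤ 25 :=
  card_torsionBy_five_le_of_charZero W

open WeierstrassCurve.Affine in
/-- the bound in the form used by `WeierstrassCurve.ModRepIsIrreducible`: the `5`-torsion of
`W` over `AlgebraicClosure ℚ` has at most `5 ^ 2` points -/
theorem card_torsionBy_five_le_ratBar (W : WeierstrassCurve ℤ) :
    Finite (Submodule.torsionBy ℤ
        (((W.map (Int.castRingHom ℚ)).toAffine)⁄(AlgebraicClosure ℚ)).Point ((5 : ℕ) : ℤ)) ∧
      Nat.card (Submodule.torsionBy ℤ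
        (((W.map (Int.castRingHom ℚ)).toAffine)⁄(AlgebraicClosure ℚ)).Point ((5 : ℕ) : ℤ))
        ≤ 5 ^ 2 :=
  card_torsionBy_five_le_of_charZero _

end Fermat.Agent.S51
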