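import Mathlib
import Fermat.Prelude.Def_FLTPrelim_ModularRep
import Fermat.Prelude.Def_FLTPrelim_Modularity
import Fermat.Agent.S51.TorsionLib
import Fermat.Agent.S51.Double
import Fermat.Agent.S51.FiveAlg
import Fermat.Agent.S51.FiveCardFinal

/-!
# S51, part A5: a Galois-stable line in `E[5]` gives a rational point of `X₀(5)`
-/

set_option autoImplicit false

open WeierstrassCurve

namespace Fermat.Agent.S51

section xcoord

variable {K : Type*} [Field K] (E : WeierstrassCurve.Affine K)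

/-- the `x`-coordinate of a point (`0` at infinity) -/
def xOf : E.Point → K
  | .zero => 0
  | .some x _ _ => x

@[simp] theorem xOf_some {x y : K} (h : E.Nonsingular x y) :
    xOf E (Affine.Point.some x y h) = x := rfl

theorem xOf_neg (P : E.Point) : xOf E (-P) = xOf E P := by
  rcases P with _ | ⟨x, y, h⟩
  · rfl
  · rfl

end xcoord

section galois

variable {R : Type*} [CommRing R] {S : Type*} [CommRing S] {K : Type*} [Field K]
  [DecidableEq K] {W' : WeierstrassCurve.Affine R} [Algebra R S] [Algebra R K] [Algebra S K]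
  [IsScalarTower R S K]

open WeierstrassCurve.Affine in
theorem xOf_smul (σ : K ≃ₐ[S] K) (P : (W'⁄K).Point) :
    xOf (W'⁄K) (σ • P) = σ (xOf (W'⁄K) P) := by
  rcases P with _ | ⟨x, y, h⟩
  · show (0 : K) = σ 0
    rw [map_zero]
  · rfl

end galois

section group

variable {K : Type*} [Field K] [DecidableEq K] (E : WeierstrassCurve.Affine K)

/-- the pair `(x(Q), x(2Q))` for `Q = m P` in the line generated by a point `P` of order `5` -/
theorem xOf_nsmul_five {P : E.Point} (h5 : 5 • P = 0) (m : ℕ) (hm : ¬ 5 ∣ m) :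
    (xOf E (m • P) = xOf E P ∧ xOf E (2 • (m • P)) = xOf E (2 • P)) ∨
      (xOf E (m • P) = xOf E (2 • P) ∧ xOf E (2 • (m • P)) = xOf E P) := by
  have key : ∀ n : ℕ, n • P = (n % 5) • P := by
    intro n
    conv_lhs => rw [← Nat.div_add_mod n 5]
    rw [add_nsmul, mul_nsmul, h5, nsmul_zero, zero_add]
  have h4 : 4 • P = -P := by
    have : 4 • P + P = 0 := by rw [← succ_nsmul]; exact h5
    exact eq_neg_of_add_eq_zero_left this
  have h3 : (3 • P : E.Point) = -((2 • P : E.Point)) := by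
    have : 3 • P + 2 • P = 0 := by rw [← add_nsmul]; exact h5
    exact eq_neg_of_add_eq_zero_left this
  have hlt : m % 5 < 5 := Nat.mod_lt _ (by norm_num)
  have hne : m % 5 ≠ 0 := fun h => hm (Nat.dvd_of_mod_eq_zero h)
  rw [← mul_nsmul, key m, key (m * 2)]
  have h2m : (m * 2) % 5 = ((m % 5) * 2) % 5 := by omega
  rw [h2m]
  interval_cases hr : m % 5
  · exact absurd rfl hne
  · left; simp
  · right
    refine ⟨rfl, ?_⟩
    show xOf E (4 • P) = xOf E P
    rw [h4, xOf_neg]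
  · right
    refine ⟨?_, ?_⟩
    · rw [h3, xOf_neg]
    · show xOf E (1 • P) = xOf E P
      rw [one_nsmul]
  · left
    refine ⟨?_, ?_⟩
    · rw [h4, xOf_neg]
    · show xOf E (3 • P) = xOf E (2 • P)
      rw [h3, xOf_neg]

end group

section main

open WeierstrassCurve.Affine

/-- the curve over `AlgebraicClosure ℚ` attached to an integral model -/
noncomputable abbrev curveBar (W : WeierstrassCurve ℤ) : WeierstrassCurve (AlgebraicClosure ℚ) :=
  ((W.map (Int.castRingHom ℚ)).toAffine)⁄(AlgebraicClosure ℚ)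

theorem curveBar_c₄ (W : WeierstrassCurve ℤ) :
    (curveBar W).c₄ = algebraMap ℚ (AlgebraicClosure ℚ) (W.c₄ : ℚ) := by
  show ((W.map (Int.castRingHom ℚ)).map (algebraMap ℚ (AlgebraicClosure ℚ))).c₄ = _
  rw [WeierstrassCurve.map_c₄, WeierstrassCurve.map_c₄]
  rfl

theorem curveBar_Δ (W : WeierstrassCurve ℤ) :
    (curveBar W).Δ = algebraMap ℚ (AlgebraicClosure ℚ) (W.Δ : ℚ) := by
  show ((W.map (Int.castRingHom ℚ)).map (algebraMap ℚ (AlgebraicClosure ℚ))).Δ = _
  rw [WeierstrassCurve.map_Δ, WeierstrassCurve.map_Δ]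
  rfl

theorem curveBar_b₂ (W : WeierstrassCurve ℤ) :
    (curveBar W).b₂ = algebraMap ℚ (AlgebraicClosure ℚ) (W.b₂ : ℚ) := by
  show ((W.map (Int.castRingHom ℚ)).map (algebraMap ℚ (AlgebraicClosure ℚ))).b₂ = _
  rw [WeierstrassCurve.map_b₂, WeierstrassCurve.map_b₂]
  rfl

theorem curveBar_b₄ (W : WeierstrassCurve ℤ) :
    (curveBar W).b₄ = algebraMap ℚ (AlgebraicClosure ℚ) (W.b₄ : ℚ) := by
  show ((W.map (Int.castRingHom ℚ)).map (algebraMap ℚ (AlgebraicClosure ℚ))).b₄ = _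
  rw [WeierstrassCurve.map_b₄, WeierstrassCurve.map_b₄]
  rfl

/-- **F7**: a Galois-stable line gives Galois-fixed `s = x₁ + x₂`, `t = x₁ x₂`. -/
theorem exists_fixed_pair (W : WeierstrassCurve ℤ)
    (N : Submodule (ZMod 5) (Submodule.torsionBy ℤ (curveBar W).toAffine.Point ((5 : ℕ) : ℤ)))
    (hN : Affine.Point.IsGaloisStable (K := AlgebraicClosure ℚ) ℚ
      (W' := (W.map (Int.castRingHom ℚ)).toAffine) N)
    (hbot : N ≠ ⊥) (htop : N ≠ ⊤) :
    ∃ x₁ x₂ : AlgebraicClosure ℚ, x₁ ≠ x₂ ∧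
      x₂ * f2 (curveBar W) x₁ = phi2 (curveBar W) x₁ ∧
      x₁ * f2 (curveBar W) x₂ = phi2 (curveBar W) x₂ ∧
      ∀ σ : AlgebraicClosure ℚ ≃ₐ[ℚ] AlgebraicClosure ℚ,
        (σ x₁ = x₁ ∧ σ x₂ = x₂) ∨ (σ x₁ = x₂ ∧ σ x₂ = x₁) := by
  obtain ⟨hfin, hcard⟩ := card_torsionBy_five_le_ratBar W
  have : Fact (Nat.Prime 5) := ⟨by norm_num⟩
  obtain ⟨P, hPN, hP0⟩ := Submodule.exists_mem_ne_zero_of_ne_bot hbot
  have hP1 : (P : (curveBar W).toAffine.Point) ≠ 0 := fun h => hP0 (Subtype.ext h)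
  have hP5 : 5 • (P : (curveBar W).toAffine.Point) = 0 := by
    have := P.2
    rw [Submodule.mem_torsionBy_iff, natCast_zsmul] at this
    exact this
  -- coordinates
  obtain ⟨x₁, y₁, h₁, hPc⟩ : ∃ (x₁ y₁ : AlgebraicClosure ℚ)
      (h₁ : (curveBar W).toAffine.Nonsingular x₁ y₁),
      (P : (curveBar W).toAffine.Point) = Affine.Point.some x₁ y₁ h₁ := by
    rcases hP : (P : (curveBar W).toAffine.Point) with _ | ⟨x, y, h⟩
    · exact absurd hP hP1
    · exact ⟨x, y, h, rfl⟩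
  rw [hPc] at hP5
  obtain ⟨x₂, y₂, h₂, h2P, -, -, hx, -, -, e1, e2⟩ := five_torsion_coords (curveBar W) h₁ hP5
  rw [← hPc] at hP5 h2P
  have hx1 : xOf (curveBar W).toAffine (P : (curveBar W).toAffine.Point) = x₁ := by
    rw [hPc]; rfl
  have hx2 : xOf (curveBar W).toAffine (2 • (P : (curveBar W).toAffine.Point)) = x₂ := by
    rw [h2P]; rfl
  refine ⟨x₁, x₂, hx, e1, e2, fun σ => ?_⟩
  -- the Galois action on the line
  obtain ⟨k, hk⟩ := exists_smul_eq_of_mem hcard N htop hPN hP0 (hN σ P hPN)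
  have hk0 : k ≠ 0 := by
    rintro rfl
    rw [zero_smul] at hk
    apply hP0
    have : σ⁻¹ • (σ • P) = 0 := by rw [hk, smul_zero]
    rwa [inv_smul_smul] at this
  have hm : ¬ 5 ∣ k.val := by
    intro hdvd
    apply hk0
    have h1 : k.val < 5 := ZMod.val_lt k
    have h2 : k.val = 0 := by omega
    exact (ZMod.val_eq_zero k).mp h2
  have hk' : σ • P = k.val • P := by
    rw [hk]
    conv_lhs => rw [← ZMod.natCast_zmod_val k]
    exact Nat.cast_smul_eq_nsmul (ZMod 5) k.val P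
  have hk1 : σ • (P : (curveBar W).toAffine.Point) =
      k.val • (P : (curveBar W).toAffine.Point) := by
    have := congrArg (fun Q : Submodule.torsionBy ℤ (curveBar W).toAffine.Point ((5 : ℕ) : ℤ) =>
      (Q : (curveBar W).toAffine.Point)) hk'
    have h' : ((σ • P : Submodule.torsionBy ℤ (curveBar W).toAffine.Point ((5 : ℕ) : ℤ)) :
        (curveBar W).toAffine.Point) = σ • (P : (curveBar W).toAffine.Point) := rfl
    rw [← h']
    simpa using this
  have hσ2 : σ • (2 • (P : (curveBar W).toAffine.Point)) =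
      2 • (σ • (P : (curveBar W).toAffine.Point)) := by
    rw [two_nsmul, two_nsmul]
    exact smul_add (A := (((W.map (Int.castRingHom ℚ)).toAffine)⁄(AlgebraicClosure ℚ)).Point)
      σ _ _
  have key := xOf_nsmul_five (curveBar W).toAffine hP5 k.val hm
  rw [← hk1, ← hσ2] at key
  have e3 := xOf_smul (W' := (W.map (Int.castRingHom ℚ)).toAffine) σ
    (P : (curveBar W).toAffine.Point)
  have e4 := xOf_smul (W' := (W.map (Int.castRingHom ℚ)).toAffine) σ
    (2 • (P : (curveBar W).toAffine.Point))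
  rw [hx1] at e3
  rw [hx2] at e4
  rw [hx1, hx2] at key
  rcases key with ⟨a, b⟩ | ⟨a, b⟩
  · left
    exact ⟨e3.symm.trans a, e4.symm.trans b⟩
  · right
    exact ⟨e3.symm.trans a, e4.symm.trans b⟩

/-- **A5**, relative to the existence of a nonzero `5`-torsion point (F5):
a Galois-stable line in `E[5]` gives a rational point of `X₀(5)`. -/
theorem exists_g_of_reducible_five_of (W : WeierstrassCurve ℤ) (hΔ : W.Δ ≠ 0)
    (hex : ∃ P : (curveBar W).toAffine.Point, P ≠ 0 ∧ 5 • P = 0)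
    (h5 : ¬ W.ModRepIsIrreducible 5) :
    ∃ g : ℚ, g ≠ 0 ∧ (W.c₄ : ℚ) ^ 3 * g = (g ^ 2 + 10 * g + 5) ^ 3 * (W.Δ : ℚ) := by
  have hinj : Function.Injective (algebraMap ℚ (AlgebraicClosure ℚ)) :=
    (algebraMap ℚ (AlgebraicClosure ℚ)).injective
  have hΔK : (curveBar W).Δ ≠ 0 := by
    rw [curveBar_Δ]
    intro h
    rw [map_eq_zero] at h
    exact hΔ (by exact_mod_cast h)
  -- a Galois-stable line
  have hN : ∃ N : Submodule (ZMod 5)
      (Submodule.torsionBy ℤ (curveBar W).toAffine.Point ((5 : ℕ) : ℤ)),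
      Affine.Point.IsGaloisStable (K := AlgebraicClosure ℚ) ℚ
        (W' := (W.map (Int.castRingHom ℚ)).toAffine) N ∧ N ≠ ⊥ ∧ N ≠ ⊤ := by
    by_contra hcon
    apply h5
    refine ⟨?_, ?_⟩
    · obtain ⟨P, hP0, hP5⟩ := hex
      have hmem : P ∈ Submodule.torsionBy ℤ (curveBar W).toAffine.Point ((5 : ℕ) : ℤ) := by
        rw [Submodule.mem_torsionBy_iff, natCast_zsmul]
        exact hP5
      exact ⟨⟨⟨P, hmem⟩, 0, fun h => hP0 (congrArg Subtype.val h)⟩⟩
    · intro N hstab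
      by_contra h
      rw [not_or] at h
      exact hcon ⟨N, hstab, h.1, h.2⟩
  obtain ⟨N, hstab, hbot, htop⟩ := hN
  obtain ⟨x₁, x₂, hx, e1, e2, hσ⟩ := exists_fixed_pair W N hstab hbot htop
  -- `s` and `t` are rational
  obtain ⟨s, hs⟩ := exists_rat_of_fixed (x₁ + x₂) (fun σ => by
    rcases hσ σ with ⟨a, b⟩ | ⟨a, b⟩
    · rw [map_add, a, b]
    · rw [map_add, a, b, add_comm])
  obtain ⟨t, ht⟩ := exists_rat_of_fixed (x₁ * x₂) (fun σ => by
    rcases hσ σ with ⟨a, b⟩ | ⟨a, b⟩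
    · rw [map_mul, a, b]
    · rw [map_mul, a, b, mul_comm])
  -- the algebra
  have hD1 : ((curveBar W).Φ 2).eval x₁ = x₂ * (curveBar W).Ψ₂Sq.eval x₁ := by
    rw [eval_Φ_two_eq, eval_Ψ₂Sq_eq]
    simpa only [f2, phi2] using e1.symm
  have hD2 : ((curveBar W).Φ 2).eval x₂ = x₁ * (curveBar W).Ψ₂Sq.eval x₂ := by
    rw [eval_Φ_two_eq, eval_Ψ₂Sq_eq]
    simpa only [f2, phi2] using e2.symm
  obtain ⟨hden, hg⟩ := five_alg_curve (curveBar W) (by norm_num) hΔK x₁ x₂ hx hD1 hD2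
  rw [← hs, ← ht] at hden hg
  have hden' : s ^ 2 - 4 * t ≠ 0 := by
    intro h
    apply hden
    have := congrArg (algebraMap ℚ (AlgebraicClosure ℚ)) h
    simpa using this
  obtain ⟨hg0, hgeq⟩ := hg (algebraMap ℚ (AlgebraicClosure ℚ)
      ((2 * (W.b₄ : ℚ) + s * (W.b₂ : ℚ) - 7 * s ^ 2 + 40 * t) / (s ^ 2 - 4 * t))) (by
    rw [curveBar_b₄, curveBar_b₂]
    have : algebraMap ℚ (AlgebraicClosure ℚ) s ^ 2 - 4 * algebraMap ℚ (AlgebraicClosure ℚ) t =
        algebraMap ℚ (AlgebraicClosure ℚ) (s ^ 2 - 4 * t) := by simp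
    rw [this, ← map_mul, div_mul_cancel₀ _ hden']
    simp)
  refine ⟨(2 * (W.b₄ : ℚ) + s * (W.b₂ : ℚ) - 7 * s ^ 2 + 40 * t) / (s ^ 2 - 4 * t), ?_, ?_⟩
  · intro h
    apply hg0
    rw [h, map_zero]
  · apply hinj
    rw [curveBar_c₄, curveBar_Δ] at hgeq
    simpa using hgeq

end main

end Fermat.Agent.S51
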