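import Mathlib
import Fermat.Prelude.Def_FLTPrelim_ModularRep
import Fermat.Prelude.Def_FLTPrelim_Modularity
import Fermat.Agent.S51.Five
import Fermat.Agent.S51.FiveExists

/-!
# S51, part A5 (final): a Galois-stable line in `E[5]` gives a rational point of `X₀(5)`
-/

set_option autoImplicit false

open WeierstrassCurve

namespace Fermat.Agent.S51

/-- **A5**: a Galois-stable line in `E[5]` gives a rational point of `X₀(5)`. -/
theorem exists_g_of_reducible_five (W : WeierstrassCurve ℤ) (hΔ : W.Δ ≠ 0)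
    (h5 : ¬ W.ModRepIsIrreducible 5) :
    ∃ g : ℚ, g ≠ 0 ∧ (W.c₄ : ℚ) ^ 3 * g = (g ^ 2 + 10 * g + 5) ^ 3 * (W.Δ : ℚ) := by
  have hΔK : (curveBar W).Δ ≠ 0 := by
    rw [curveBar_Δ]
    intro h
    rw [map_eq_zero] at h
    exact hΔ (by exact_mod_cast h)
  exact exists_g_of_reducible_five_of W hΔ (exists_five_torsion (curveBar W) hΔK) h5

end Fermat.Agent.S51
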