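import Mathlib.AlgebraicGeometry.EllipticCurve.Weierstrass
import Mathlib.Tactic

/-!
# S51, part A3 (algebra): a rational root of the 3-division polynomial gives a rational point
of `X₀(3)`

If `x₀` is a root of `ψ₃ = 3 x⁴ + b₂ x³ + 3 b₄ x² + 3 b₆ x + b₈`, translate `x ↦ x + x₀`; the new
`b₈` vanishes, and `h := (b₂² - 27 b₄) / b₄` satisfies `j = (h + 27) (h + 3)³ / h`.
-/

set_option autoImplicit false

namespace Fermat.Agent.S51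

/-- the field-level statement -/
theorem three_alg_field {K : Type*} [Field K] (b2 b4 b6 b8 c4 D x0 : K)
    (hrel : 4 * b8 = b2 * b6 - b4 ^ 2) (hc4 : c4 = b2 ^ 2 - 24 * b4)
    (hD : D = -b2 ^ 2 * b8 - 8 * b4 ^ 3 - 27 * b6 ^ 2 + 9 * b2 * b4 * b6) (hD0 : D ≠ 0)
    (h27 : (27 : K) ≠ 0)
    (hx : 3 * x0 ^ 4 + b2 * x0 ^ 3 + 3 * b4 * x0 ^ 2 + 3 * b6 * x0 + b8 = 0) :
    ∃ h : K, h ≠ 0 ∧ c4 ^ 3 * h = (h + 27) * (h + 3) ^ 3 * D := by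
  set B2 : K := b2 + 12 * x0 with hB2
  set B4 : K := b4 + x0 * b2 + 6 * x0 ^ 2 with hB4
  set B6 : K := b6 + 2 * x0 * b4 + x0 ^ 2 * b2 + 4 * x0 ^ 3 with hB6
  have h1 : B2 * B6 = B4 ^ 2 := by
    rw [hB2, hB4, hB6]
    linear_combination 4 * hx - hrel
  have h2 : c4 = B2 ^ 2 - 24 * B4 := by
    rw [hB2, hB4, hc4]
    ring
  have h3 : D = -8 * B4 ^ 3 - 27 * B6 ^ 2 + 9 * B2 * B4 * B6 := by
    rw [hB2, hB4, hB6, hD]
    linear_combination (-(b2 + 12 * x0) ^ 2) * hx + 6 * x0 * (b2 + 6 * x0) * hrel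
  by_cases hB : B2 = 0
  · have hB4' : B4 = 0 := by
      have : B4 ^ 2 = 0 := by rw [← h1, hB, zero_mul]
      exact pow_eq_zero_iff (two_ne_zero) |>.1 this
    refine ⟨-27, neg_ne_zero.2 h27, ?_⟩
    rw [h2, hB, hB4']
    ring
  · have h4 : D * B2 ^ 2 = B4 ^ 3 * (B2 ^ 2 - 27 * B4) := by
      rw [h3]
      linear_combination (-27 * B2 * B6 - 27 * B4 ^ 2 + 9 * B2 ^ 2 * B4) * h1
    have hB4' : B4 ≠ 0 := by
      intro h0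
      rw [h0] at h4
      have : D * B2 ^ 2 = 0 := by rw [h4]; ring
      rcases mul_eq_zero.1 this with h5 | h5
      · exact hD0 h5
      · exact hB (pow_eq_zero_iff (two_ne_zero) |>.1 h5)
    have hN : B2 ^ 2 - 27 * B4 ≠ 0 := by
      intro h0
      rw [h0, mul_zero] at h4
      rcases mul_eq_zero.1 h4 with h5 | h5
      · exact hD0 h5
      · exact hB (pow_eq_zero_iff (two_ne_zero) |>.1 h5)
    refine ⟨(B2 ^ 2 - 27 * B4) / B4, div_ne_zero hN hB4', ?_⟩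
    have e1 : (B2 ^ 2 - 27 * B4) / B4 + 27 = B2 ^ 2 / B4 := by
      field_simp
      ring
    have e2 : (B2 ^ 2 - 27 * B4) / B4 + 3 = c4 / B4 := by
      rw [h2]
      field_simp
      ring
    rw [e1, e2]
    have hD' : D = B4 ^ 3 * (B2 ^ 2 - 27 * B4) / B2 ^ 2 := by
      rw [eq_div_iff (pow_ne_zero _ hB)]
      exact h4
    rw [hD']
    field_simp

/-- **A3, algebraic part, over a field**: a root in `K` of the 3-division polynomial of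
`W : WeierstrassCurve K` gives a point `h ≠ 0` of `X₀(3)` above `j(W)`. -/
theorem three_alg_curve {K : Type*} [Field K] (W : WeierstrassCurve K) (hΔ : W.Δ ≠ 0)
    (h27 : (27 : K) ≠ 0) (x0 : K)
    (hx : 3 * x0 ^ 4 + W.b₂ * x0 ^ 3 + 3 * W.b₄ * x0 ^ 2 + 3 * W.b₆ * x0 + W.b₈ = 0) :
    ∃ h : K, h ≠ 0 ∧ W.c₄ ^ 3 * h = (h + 27) * (h + 3) ^ 3 * W.Δ :=
  three_alg_field W.b₂ W.b₄ W.b₆ W.b₈ W.c₄ W.Δ x0 W.b_relation
    (by rw [WeierstrassCurve.c₄]) (by rw [WeierstrassCurve.Δ]) hΔ h27 hx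

/-- the same over `ℚ` -/
theorem three_alg_rat (W : WeierstrassCurve ℚ) (hΔ : W.Δ ≠ 0) (x0 : ℚ)
    (hx : 3 * x0 ^ 4 + W.b₂ * x0 ^ 3 + 3 * W.b₄ * x0 ^ 2 + 3 * W.b₆ * x0 + W.b₈ = 0) :
    ∃ h : ℚ, h ≠ 0 ∧ W.c₄ ^ 3 * h = (h + 27) * (h + 3) ^ 3 * W.Δ :=
  three_alg_curve W hΔ (by norm_num) x0 hx

/-- **A3, algebraic part**: a rational root of the 3-division polynomial of `W` gives a rational
point `h ≠ 0` of `X₀(3)` above `j(W)`. -/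
theorem three_alg (W : WeierstrassCurve ℤ) (hΔ : W.Δ ≠ 0) (x0 : ℚ)
    (hx : 3 * x0 ^ 4 + (W.b₂ : ℚ) * x0 ^ 3 + 3 * (W.b₄ : ℚ) * x0 ^ 2 + 3 * (W.b₆ : ℚ) * x0
      + (W.b₈ : ℚ) = 0) :
    ∃ h : ℚ, h ≠ 0 ∧ (W.c₄ : ℚ) ^ 3 * h = (h + 27) * (h + 3) ^ 3 * (W.Δ : ℚ) := by
  refine three_alg_field (W.b₂ : ℚ) (W.b₄ : ℚ) (W.b₆ : ℚ) (W.b₈ : ℚ) (W.c₄ : ℚ) (W.Δ : ℚ) x0
    ?_ ?_ ?_ (by exact_mod_cast hΔ) (by norm_num) hx
  · exact_mod_cast W.b_relation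
  · rw [WeierstrassCurve.c₄]
    push_cast
    ring
  · rw [WeierstrassCurve.Δ]
    push_cast
    ring

end Fermat.Agent.S51
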