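import Mathlib
import Fermat.Prelude.Def_FLTPrelim_ModularRep
import Fermat.Agent.S51.TorsionLib
import Fermat.Agent.S51.ThreeAlg

set_option autoImplicit false

open WeierstrassCurve Polynomial

namespace Fermat.Agent.S51

theorem add_self_eq_neg_of_three_zsmul {G : Type*} [AddCommGroup G] {P : G}
    (h : (3 : ℤ) • P = 0) : P + P = -P := by
  have h4 : (3 : ℤ) • P = P + P + P := by
    rw [show (3 : ℤ) = 1 + 1 + 1 by norm_num, add_smul, add_smul, one_smul]
  rw [h4] at h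
  exact eq_neg_of_add_eq_zero_left h

theorem zmod_three_cases (k : ZMod 3) : k = 0 ∨ k = 1 ∨ k = 2 := by
  revert k
  decide

section three

variable {F : Type*} [Field F] [DecidableEq F] (E : WeierstrassCurve.Affine F)

omit [DecidableEq F] in
theorem three_eval_Ψ₃_eq (x : F) : E.Ψ₃.eval x =
    3 * x ^ 4 + E.b₂ * x ^ 3 + 3 * E.b₄ * x ^ 2 + 3 * E.b₆ * x + E.b₈ := by
  simp [WeierstrassCurve.Ψ₃]

/-- the `x`-coordinate of a nonzero `3`-torsion point is a root of `Ψ₃` -/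
theorem eval_Ψ₃_eq_zero_of_three_smul {x y : F} (hxy : E.Nonsingular x y)
    (h : (3 : ℤ) • (Affine.Point.some x y hxy : E.Point) = 0) : E.Ψ₃.eval x = 0 := by
  have h3 : (Affine.Point.some x y hxy : E.Point) + Affine.Point.some x y hxy =
      - Affine.Point.some x y hxy := add_self_eq_neg_of_three_zsmul h
  have heq := (Affine.equation_iff x y).mp hxy.1
  by_cases hy : y = E.negY x y
  · rw [Affine.Point.add_self_of_Y_eq hy] at h3
    exact absurd h3.symm (by simp [Affine.Point.neg_some])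
  · rw [Affine.Point.add_self_of_Y_ne hy, Affine.Point.neg_some] at h3
    have hx : E.addX x x (E.slope x x y y) = x := by
      injection h3
    rw [Affine.slope_of_Y_ne rfl hy] at hx
    have hd : y - E.negY x y ≠ 0 := sub_ne_zero.mpr hy
    simp only [Affine.addX, Affine.negY] at hx hd
    have key : (3 * x ^ 2 + 2 * E.a₂ * x + E.a₄ - E.a₁ * y) ^ 2 +
        E.a₁ * (3 * x ^ 2 + 2 * E.a₂ * x + E.a₄ - E.a₁ * y) * (y - (-y - E.a₁ * x - E.a₃)) -
        (E.a₂ + 3 * x) * (y - (-y - E.a₁ * x - E.a₃)) ^ 2 = 0 := by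
      generalize (3 * x ^ 2 + 2 * E.a₂ * x + E.a₄ - E.a₁ * y) = n at hx
      generalize (y - (-y - E.a₁ * x - E.a₃)) = d at hx hd
      field_simp at hx
      linear_combination hx
    rw [three_eval_Ψ₃_eq]
    simp only [WeierstrassCurve.b₂, WeierstrassCurve.b₄, WeierstrassCurve.b₆,
      WeierstrassCurve.b₈]
    linear_combination (-(E.a₁ ^ 2 + 4 * E.a₂ + 12 * x)) * heq - key

omit [DecidableEq F] in
/-- at a root of `Ψ₃` the tangent is not vertical -/
theorem Y_ne_negY_of_eval_Ψ₃ (h2 : (2 : F) ≠ 0) {x y : F} (hxy : E.Nonsingular x y)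
    (hx : E.Ψ₃.eval x = 0) : y ≠ E.negY x y := by
  intro hy
  have heq := (Affine.equation_iff x y).mp hxy.1
  have hns := ((Affine.nonsingular_iff x y).mp hxy).2
  rw [three_eval_Ψ₃_eq] at hx
  simp only [WeierstrassCurve.b₂, WeierstrassCurve.b₄, WeierstrassCurve.b₆,
    WeierstrassCurve.b₈] at hx
  simp only [Affine.negY] at hy
  have hd : 2 * y + E.a₁ * x + E.a₃ = 0 := by linear_combination hy
  have hy' : y = -y - E.a₁ * x - E.a₃ := hy
  -- f(x) = 0
  have hf : 4 * x ^ 3 + (E.a₁ ^ 2 + 4 * E.a₂) * x ^ 2 + 2 * (2 * E.a₄ + E.a₁ * E.a₃) * x +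
      (E.a₃ ^ 2 + 4 * E.a₆) = 0 := by
    linear_combination (2 * y + E.a₁ * x + E.a₃) * hd - 4 * heq
  -- f'(x)^2 = 0
  have hf' : (12 * x ^ 2 + 2 * (E.a₁ ^ 2 + 4 * E.a₂) * x + 2 * (2 * E.a₄ + E.a₁ * E.a₃)) ^ 2
      = 0 := by
    linear_combination (2 * (24 * x + 2 * (E.a₁ ^ 2 + 4 * E.a₂))) * hf - 16 * hx
  have hf'' : 12 * x ^ 2 + 2 * (E.a₁ ^ 2 + 4 * E.a₂) * x + 2 * (2 * E.a₄ + E.a₁ * E.a₃) = 0 :=
    pow_eq_zero_iff (two_ne_zero) |>.mp hf'
  have h4 : (4 : F) ≠ 0 := by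
    have : (4 : F) = 2 * 2 := by norm_num
    rw [this]
    exact mul_ne_zero h2 h2
  rcases hns with hns | hns
  · apply hns
    apply mul_left_cancel₀ h4
    linear_combination (2 * E.a₁) * hd - hf''
  · exact hns hy'

/-- a root of `Ψ₃` is the `x`-coordinate of a `3`-torsion point -/
theorem three_smul_eq_zero_of_eval_Ψ₃ (h2 : (2 : F) ≠ 0) {x y : F} (hxy : E.Nonsingular x y)
    (hx : E.Ψ₃.eval x = 0) : (3 : ℤ) • (Affine.Point.some x y hxy : E.Point) = 0 := by
  have hy := Y_ne_negY_of_eval_Ψ₃ E h2 hxy hx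
  have heq := (Affine.equation_iff x y).mp hxy.1
  have hd : y - E.negY x y ≠ 0 := sub_ne_zero.mpr hy
  have hadd := Affine.Point.add_self_of_Y_ne (h₁ := hxy) hy
  have hX : E.addX x x (E.slope x x y y) = x := by
    rw [Affine.slope_of_Y_ne rfl hy]
    simp only [Affine.addX, Affine.negY] at hd ⊢
    rw [three_eval_Ψ₃_eq] at hx
    simp only [WeierstrassCurve.b₂, WeierstrassCurve.b₄, WeierstrassCurve.b₆,
      WeierstrassCurve.b₈] at hx
    have key : (3 * x ^ 2 + 2 * E.a₂ * x + E.a₄ - E.a₁ * y) ^ 2 +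
        E.a₁ * (3 * x ^ 2 + 2 * E.a₂ * x + E.a₄ - E.a₁ * y) * (y - (-y - E.a₁ * x - E.a₃)) -
        (E.a₂ + 3 * x) * (y - (-y - E.a₁ * x - E.a₃)) ^ 2 = 0 := by
      linear_combination (-(E.a₁ ^ 2 + 4 * E.a₂ + 12 * x)) * heq - hx
    generalize (3 * x ^ 2 + 2 * E.a₂ * x + E.a₄ - E.a₁ * y) = n at key ⊢
    generalize (y - (-y - E.a₁ * x - E.a₃)) = d at key hd ⊢
    field_simp
    linear_combination key
  have h2P : (Affine.Point.some x y hxy : E.Point) + Affine.Point.some x y hxy =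
      - Affine.Point.some x y hxy := by
    rw [hadd]
    rcases (Affine.Point.X_eq_iff (h₁ := Affine.nonsingular_add hxy hxy fun hxy' => hy hxy'.right)
      (h₂ := hxy)).mp hX with h | h
    · exfalso
      rw [← hadd] at h
      exact Affine.Point.some_ne_zero hxy (add_eq_right.mp h)
    · exact h
  rw [show (3 : ℤ) = 1 + 1 + 1 by norm_num, add_smul, add_smul, one_smul, h2P]
  exact neg_add_cancel _

/-- over an algebraically closed field of characteristic `≠ 2, 3`, an elliptic curve has a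
nonzero `3`-torsion point -/
theorem exists_three_torsion [IsAlgClosed F] (h2 : (2 : F) ≠ 0) (h3 : (3 : F) ≠ 0)
    (hΔ : E.Δ ≠ 0) :
    ∃ (x y : F) (hxy : E.Nonsingular x y),
      (3 : ℤ) • (Affine.Point.some x y hxy : E.Point) = 0 := by
  obtain ⟨x, hx⟩ := IsAlgClosed.exists_root E.Ψ₃ (by
    rw [degree_eq_natDegree (E.Ψ₃_ne_zero h3), E.natDegree_Ψ₃ h3]
    norm_num)
  obtain ⟨y, hy⟩ := IsAlgClosed.exists_root (yPoly E x) (by
    have h1 : (yPoly E x).natDegree = 2 := by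
      unfold yPoly
      compute_degree!
    rw [degree_eq_natDegree (yPoly_ne_zero E x), h1]
    norm_num)
  have heq : E.Equation x y := by
    rw [Affine.equation_iff]
    simp only [yPoly, IsRoot.def, eval_sub, eval_add, eval_pow, eval_X, eval_mul, eval_C] at hy
    linear_combination hy
  have hxy : E.Nonsingular x y := (Affine.equation_iff_nonsingular_of_Δ_ne_zero hΔ).mp heq
  exact ⟨x, y, hxy, three_smul_eq_zero_of_eval_Ψ₃ E h2 hxy hx⟩

end three

section main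

open WeierstrassCurve.Affine.Point in
/-- if the mod `3` representation is reducible, `Ψ₃` has a rational root -/
theorem exists_rat_root_of_reducible_three (W : WeierstrassCurve ℤ) (hΔ : W.Δ ≠ 0)
    (h3 : ¬ W.ModRepIsIrreducible 3) :
    ∃ r : ℚ, 3 * r ^ 4 + (W.b₂ : ℚ) * r ^ 3 + 3 * (W.b₄ : ℚ) * r ^ 2 + 3 * (W.b₆ : ℚ) * r
      + (W.b₈ : ℚ) = 0 := by
  have hinj : Function.Injective (algebraMap ℚ (AlgebraicClosure ℚ)) :=
    (algebraMap ℚ (AlgebraicClosure ℚ)).injective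
  have hEΔ : (Affine.baseChange (W.map (Int.castRingHom ℚ)) (AlgebraicClosure ℚ)).Δ ≠ 0 := by
    change ((W.map (Int.castRingHom ℚ)).map (algebraMap ℚ (AlgebraicClosure ℚ))).Δ ≠ 0
    rw [WeierstrassCurve.map_Δ, WeierstrassCurve.map_Δ]
    simpa using hΔ
  have h2 : (2 : AlgebraicClosure ℚ) ≠ 0 := two_ne_zero
  have h3' : (3 : AlgebraicClosure ℚ) ≠ 0 := three_ne_zero
  -- the `3`-torsion is nontrivial
  obtain ⟨x₁, y₁, hxy₁, hP₁⟩ := exists_three_torsion
    (Affine.baseChange (W.map (Int.castRingHom ℚ)) (AlgebraicClosure ℚ)) h2 h3' hEΔ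
  have hnt : Nontrivial (Submodule.torsionBy ℤ
      (Affine.baseChange (W.map (Int.castRingHom ℚ)) (AlgebraicClosure ℚ)).Point (3 : ℕ)) := by
    refine ⟨⟨⟨Affine.Point.some x₁ y₁ hxy₁, ?_⟩, 0, ?_⟩⟩
    · rw [Submodule.mem_torsionBy_iff]
      exact_mod_cast hP₁
    · intro h
      exact Affine.Point.some_ne_zero hxy₁ (congrArg Subtype.val h)
  -- a stable line
  unfold WeierstrassCurve.ModRepIsIrreducible GaloisRepIsIrreducible at h3
  push Not at h3
  obtain ⟨N, hN, hbot, htop⟩ := h3 hnt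
  obtain ⟨P, hPN, hP0⟩ := Submodule.exists_mem_ne_zero_of_ne_bot hbot
  -- the cardinality bound
  have hcard := card_torsionBy_le (Affine.baseChange (W.map (Int.castRingHom ℚ)) (AlgebraicClosure ℚ)) 3
    (WeierstrassCurve.Ψ₃_ne_zero _ h3')
    (fun x y hxy h => eval_Ψ₃_eq_zero_of_three_smul _ hxy (by exact_mod_cast h))
  obtain ⟨hfin, hcard⟩ := hcard
  have hcard9 : Nat.card (Submodule.torsionBy ℤ
      (Affine.baseChange (W.map (Int.castRingHom ℚ)) (AlgebraicClosure ℚ)).Point (3 : ℕ)) ≤ 3 ^ 2 := by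
    refine hcard.trans ?_
    have := WeierstrassCurve.natDegree_Ψ₃_le
      (Affine.baseChange (W.map (Int.castRingHom ℚ)) (AlgebraicClosure ℚ))
    omega
  have : Fact (Nat.Prime 3) := ⟨Nat.prime_three⟩
  -- the point `P`
  obtain ⟨P₀, hP₀⟩ := P
  have hP₀0 : P₀ ≠ 0 := fun h => hP0 (Subtype.ext h)
  have hP₀3 : (3 : ℤ) • P₀ = 0 := by
    rw [Submodule.mem_torsionBy_iff] at hP₀
    exact_mod_cast hP₀
  rcases P₀ with _ | ⟨x₀, y₀, hxy₀⟩
  · exact absurd rfl hP₀0
  have hroot := eval_Ψ₃_eq_zero_of_three_smul _ hxy₀ hP₀3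
  -- `x₀` is Galois-fixed
  have hfix : ∀ σ : AlgebraicClosure ℚ ≃ₐ[ℚ] AlgebraicClosure ℚ, σ x₀ = x₀ := by
    intro σ
    obtain ⟨k, hk⟩ := exists_smul_eq_of_mem (p := 3) hcard9 N htop hPN hP0 (hN σ _ hPN)
    have hk' := congrArg Subtype.val hk
    obtain ⟨hσ, hσP⟩ := smul_some (W' := W.map (Int.castRingHom ℚ)) σ hxy₀
    have hval : ((σ • (⟨Affine.Point.some x₀ y₀ hxy₀, hP₀⟩ : Submodule.torsionBy ℤ
        (Affine.baseChange (W.map (Int.castRingHom ℚ)) (AlgebraicClosure ℚ)).Point (3 : ℕ)) :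
        Submodule.torsionBy ℤ (Affine.baseChange (W.map (Int.castRingHom ℚ)) (AlgebraicClosure ℚ)).Point (3 : ℕ)) :
        (Affine.baseChange (W.map (Int.castRingHom ℚ)) (AlgebraicClosure ℚ)).Point) =
        Affine.Point.some (σ x₀) (σ y₀) hσ := hσP
    rw [hval] at hk'
    rcases zmod_three_cases k with rfl | rfl | rfl
    · rw [zero_smul] at hk'
      exact absurd hk' (Affine.Point.some_ne_zero hσ)
    · rw [one_smul] at hk'
      injection hk'
    · rw [two_smul] at hk'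
      have h2P : (Affine.Point.some x₀ y₀ hxy₀ :
          (Affine.baseChange (W.map (Int.castRingHom ℚ)) (AlgebraicClosure ℚ)).Point) +
          Affine.Point.some x₀ y₀ hxy₀ = - Affine.Point.some x₀ y₀ hxy₀ :=
        add_self_eq_neg_of_three_zsmul hP₀3
      change Affine.Point.some (σ x₀) (σ y₀) hσ =
        Affine.Point.some x₀ y₀ hxy₀ + Affine.Point.some x₀ y₀ hxy₀ at hk'
      rw [h2P, Affine.Point.neg_some] at hk'
      injection hk'
  obtain ⟨r, hr⟩ := exists_rat_of_fixed x₀ hfix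
  refine ⟨r, ?_⟩
  apply hinj
  rw [three_eval_Ψ₃_eq, ← hr] at hroot
  simp only [WeierstrassCurve.Affine.baseChange, WeierstrassCurve.baseChange,
    WeierstrassCurve.map_b₂, WeierstrassCurve.map_b₄, WeierstrassCurve.map_b₆,
    WeierstrassCurve.map_b₈] at hroot
  rw [_root_.map_zero]
  simp only [map_add, map_mul, map_pow, map_ofNat]
  simpa using hroot

/-- **A3**: a Galois-stable line in `E[3]` gives a rational point of `X₀(3)` -/
theorem exists_h_of_reducible_three (W : WeierstrassCurve ℤ) (hΔ : W.Δ ≠ 0)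
    (h3 : ¬ W.ModRepIsIrreducible 3) :
    ∃ h : ℚ, h ≠ 0 ∧ (W.c₄ : ℚ) ^ 3 * h = (h + 27) * (h + 3) ^ 3 * (W.Δ : ℚ) := by
  obtain ⟨r, hr⟩ := exists_rat_root_of_reducible_three W hΔ h3
  exact three_alg W hΔ r hr

end main

end Fermat.Agent.S51
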