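import Mathlib

/-!
# S51, part C-a: normal form (2-descent image) for `y² = x (x + 9) (x - 16)`, `x > 16`

`normalForm_of_kill`: a rational point with `x > 16` has `x = A² / E²` in lowest terms with
`A² + 9 E² = d B²`, `A² - 16 E² = d C²`, `d ∈ {1, 5}`, provided the six other classes are empty
(`NFKill`, proved in `DescentKill.lean`).
-/

set_option autoImplicit false

namespace Fermat.Agent.S51

/-- if `a * b` is a square then `a = g * u ^ 2` with `g = gcd a b` -/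
theorem nf_eq_mul_sq {a b G : ℕ} (ha : 0 < a) (hG : Nat.gcd a b ∣ G) (h : IsSquare (a * b)) :
    ∃ g u, g ∣ G ∧ 0 < u ∧ a = g * u ^ 2 := by
  obtain ⟨k, hk⟩ := h
  obtain ⟨g, hg⟩ : ∃ g, g = Nat.gcd a b := ⟨_, rfl⟩
  have hgpos : 0 < g := hg ▸ Nat.gcd_pos_of_pos_left _ ha
  have hcop : Nat.Coprime (a / g) (b / g) := by
    rw [hg]; exact Nat.coprime_div_gcd_div_gcd (hg ▸ hgpos)
  obtain ⟨a', ha'⟩ : g ∣ a := hg ▸ Nat.gcd_dvd_left a b
  obtain ⟨b', hb'⟩ : g ∣ b := hg ▸ Nat.gcd_dvd_right a b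
  rw [ha', hb', Nat.mul_div_cancel_left _ hgpos, Nat.mul_div_cancel_left _ hgpos] at hcop
  have hgk : g ∣ k := by
    have : g ^ 2 ∣ k ^ 2 := ⟨a' * b', by rw [sq k, ← hk, ha', hb']; ring⟩
    exact (Nat.pow_dvd_pow_iff two_ne_zero).mp this
  obtain ⟨k', hk'⟩ := hgk
  have h2 : a' * b' = k' ^ 2 := by
    have : g ^ 2 * (a' * b') = g ^ 2 * k' ^ 2 := by
      have e1 : g ^ 2 * (a' * b') = a * b := by rw [ha', hb']; ring
      rw [e1, hk, hk']; ring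
    exact Nat.eq_of_mul_eq_mul_left (by positivity) this
  obtain ⟨u, hu⟩ := exists_eq_pow_of_mul_eq_pow (Nat.isUnit_iff.mpr hcop) h2
  have hupos : 0 < u := by
    rcases Nat.eq_zero_or_pos u with h0 | h0
    · subst h0
      simp at hu
      subst hu
      simp at ha'
      omega
    · exact h0
  exact ⟨g, u, hg ▸ hG, hupos, by rw [ha', hu]⟩

theorem nf_div_144 : ∀ g ∈ Finset.range 145, g ∣ 144 →
    ∃ s ∈ ({1, 2, 3, 6} : Finset ℕ), ∃ w ∈ Finset.Icc 1 12, g = s * w ^ 2 := by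
  decide +kernel

theorem nf_div_225 : ∀ g ∈ Finset.range 226, g ∣ 225 →
    ∃ s ∈ ({1, 3, 5, 15} : Finset ℕ), ∃ w ∈ Finset.Icc 1 15, g = s * w ^ 2 := by
  decide +kernel

theorem nf_div_400 : ∀ g ∈ Finset.range 401, g ∣ 400 →
    ∃ s ∈ ({1, 2, 5, 10} : Finset ℕ), ∃ w ∈ Finset.Icc 1 20, g = s * w ^ 2 := by
  decide +kernel

theorem nf_classes : ∀ s1 ∈ ({1, 2, 3, 6} : Finset ℕ), ∀ s2 ∈ ({1, 3, 5, 15} : Finset ℕ),
    ∀ s3 ∈ ({1, 2, 5, 10} : Finset ℕ), ∀ t ∈ Finset.range 31, s1 * s2 * s3 = t ^ 2 →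
    ∃ a ∈ Finset.range 2, ∃ b ∈ Finset.range 2, ∃ c ∈ Finset.range 2,
      s1 = 2 ^ a * 3 ^ b ∧ s2 = 3 ^ b * 5 ^ c ∧ s3 = 2 ^ a * 5 ^ c := by
  decide +kernel

/-- squarefree-part extraction with explicit bound -/
theorem nf_extract {a b G : ℕ} (ha : 0 < a) (hGpos : 0 < G) (hG : Nat.gcd a b ∣ G)
    (h : IsSquare (a * b))
    (S : Finset ℕ) (W : ℕ)
    (hdiv : ∀ g ∈ Finset.range (G + 1), g ∣ G → ∃ s ∈ S, ∃ w ∈ Finset.Icc 1 W, g = s * w ^ 2) :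
    ∃ s ∈ S, ∃ u, 0 < u ∧ a = s * u ^ 2 := by
  obtain ⟨g, u, hgG, hu, hau⟩ := nf_eq_mul_sq ha hG h
  have hgle : g ≤ G := Nat.le_of_dvd hGpos hgG
  obtain ⟨s, hs, w, hw, hgw⟩ := hdiv g (Finset.mem_range.mpr (by omega)) hgG
  rw [Finset.mem_Icc] at hw
  refine ⟨s, hs, w * u, Nat.mul_pos (by omega) hu, ?_⟩
  rw [hau, hgw]; ring

/-- integer form of a rational point with `x > 16`: `x = m / n` in lowest terms, `m = r + 16 n`,
and `n * (m * ((m + 9 n) * r))` is a square. -/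
theorem nf_integral (x y : ℚ) (hx : 16 < x) (hy : y ^ 2 = x * (x + 9) * (x - 16)) :
    ∃ m n r : ℕ, 0 < n ∧ 0 < r ∧ m = r + 16 * n ∧ Nat.Coprime m n ∧ x = (m : ℚ) / (n : ℚ) ∧
      IsSquare (n * (m * ((m + 9 * n) * r))) := by
  have hxpos : 0 < x := by linarith
  obtain ⟨m, hm⟩ : ∃ m : ℕ, (m : ℤ) = x.num :=
    ⟨x.num.toNat, Int.toNat_of_nonneg (Rat.num_nonneg.mpr hxpos.le)⟩
  have hn : 0 < x.den := x.den_pos
  have hcop : Nat.Coprime m x.den := by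
    have := x.reduced
    rwa [← hm, Int.natAbs_natCast] at this
  have hxmn : x = (m : ℚ) / (x.den : ℚ) := by
    conv_lhs => rw [← Rat.num_div_den x]
    rw [← hm]; push_cast; rfl
  have hnq : (0 : ℚ) < (x.den : ℚ) := by exact_mod_cast hn
  have hmn : 16 * x.den < m := by
    have h1 : (16 : ℚ) < (m : ℚ) / (x.den : ℚ) := hxmn ▸ hx
    rw [lt_div_iff₀ hnq] at h1
    exact_mod_cast h1
  refine ⟨m, x.den, m - 16 * x.den, hn, by omega, by omega, hcop, hxmn, ?_⟩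
  rw [← Rat.isSquare_natCast_iff]
  refine ⟨y * (x.den : ℚ) ^ 2, ?_⟩
  have hr : ((m - 16 * x.den : ℕ) : ℚ) = (m : ℚ) - 16 * (x.den : ℚ) := by
    rw [Nat.cast_sub hmn.le]; push_cast; ring
  push_cast
  rw [hr]
  have hy' : y ^ 2 = ((m : ℚ) / (x.den : ℚ)) * ((m : ℚ) / (x.den : ℚ) + 9) *
      ((m : ℚ) / (x.den : ℚ) - 16) := by rw [← hxmn]; exact hy
  have hne : (x.den : ℚ) ≠ 0 := hnq.ne'
  field_simp at hy'
  linear_combination (-(x.den : ℚ)) * hy'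

theorem nf_gcd_dvd {p q n k : ℕ} (hq : q = p + k * n) (hcop : Nat.Coprime p n) :
    Nat.gcd p q ∣ k ∧ Nat.gcd q p ∣ k := by
  have h1 : Nat.gcd p q ∣ k := by
    have hdp : Nat.gcd p q ∣ p := Nat.gcd_dvd_left _ _
    have hdq : Nat.gcd p q ∣ p + k * n := hq ▸ Nat.gcd_dvd_right _ _
    have hdk : Nat.gcd p q ∣ k * n := (Nat.dvd_add_right hdp).mp hdq
    have hc : Nat.Coprime (Nat.gcd p q) n := Nat.Coprime.coprime_dvd_left hdp hcop
    exact hc.dvd_of_dvd_mul_right hdk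
  exact ⟨h1, Nat.gcd_comm p q ▸ h1⟩

theorem nf_three_factors (m n r : ℕ) (hn : 0 < n) (hr : 0 < r) (hm : m = r + 16 * n)
    (hcop : Nat.Coprime m n) (hsq : IsSquare (n * (m * ((m + 9 * n) * r)))) :
    ∃ E A B C s1 s2 s3 : ℕ, 0 < E ∧ 0 < A ∧ 0 < B ∧ 0 < C ∧ n = E ^ 2 ∧ m = s1 * A ^ 2 ∧
      m + 9 * n = s2 * B ^ 2 ∧ r = s3 * C ^ 2 ∧
      s1 ∈ ({1, 2, 3, 6} : Finset ℕ) ∧ s2 ∈ ({1, 3, 5, 15} : Finset ℕ) ∧
      s3 ∈ ({1, 2, 5, 10} : Finset ℕ) ∧ ∃ t, s1 * s2 * s3 = t ^ 2 := by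
  have hmpos : 0 < m := by omega
  have hcr : Nat.Coprime r n := by
    have : Nat.Coprime (r + 16 * n) n := hm ▸ hcop
    exact (Nat.coprime_add_mul_right_left r n 16).mp this
  have hcq : Nat.Coprime (m + 9 * n) n := (Nat.coprime_add_mul_right_left m n 9).mpr hcop
  have hcall : Nat.Coprime n (m * ((m + 9 * n) * r)) :=
    Nat.Coprime.mul_right hcop.symm (Nat.Coprime.mul_right hcq.symm hcr.symm)
  obtain ⟨k, hk⟩ := isSquare_iff_exists_sq _ |>.mp hsq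
  obtain ⟨E, hE⟩ := exists_eq_pow_of_mul_eq_pow (Nat.isUnit_iff.mpr hcall) hk
  obtain ⟨K, hK⟩ := exists_eq_pow_of_mul_eq_pow (Nat.isUnit_iff.mpr hcall.symm)
    (show m * ((m + 9 * n) * r) * n = k ^ 2 by rw [← hk]; ring)
  have hEpos : 0 < E := by
    rcases Nat.eq_zero_or_pos E with h0 | h0
    · subst h0; simp at hE; omega
    · exact h0
  -- gcd bounds
  have g12 := nf_gcd_dvd (p := m) (q := m + 9 * n) (n := n) (k := 9) rfl hcop
  have g31 := nf_gcd_dvd (p := r) (q := m) (n := n) (k := 16) hm hcr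
  have g32 := nf_gcd_dvd (p := r) (q := m + 9 * n) (n := n) (k := 25) (by omega) hcr
  have hsqK : IsSquare (m * ((m + 9 * n) * r)) := (isSquare_iff_exists_sq _).mpr ⟨K, hK⟩
  -- first factor
  obtain ⟨s1, hs1, A, hA, hmA⟩ := nf_extract (a := m) (b := (m + 9 * n) * r) (G := 144)
    hmpos (by norm_num)
    ((Nat.gcd_mul_right_dvd_mul_gcd _ _ _).trans (Nat.mul_dvd_mul g12.1 g31.2))
    hsqK _ 12 nf_div_144
  obtain ⟨s2, hs2, B, hB, hmB⟩ := nf_extract (a := m + 9 * n) (b := m * r) (G := 225)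
    (by omega) (by norm_num)
    ((Nat.gcd_mul_right_dvd_mul_gcd _ _ _).trans (Nat.mul_dvd_mul g12.2 g32.2))
    (by convert hsqK using 1; ring) _ 15 nf_div_225
  obtain ⟨s3, hs3, C, hC, hmC⟩ := nf_extract (a := r) (b := m * (m + 9 * n)) (G := 400)
    hr (by norm_num)
    ((Nat.gcd_mul_right_dvd_mul_gcd _ _ _).trans (Nat.mul_dvd_mul g31.1 g32.1))
    (by convert hsqK using 1; ring) _ 20 nf_div_400
  refine ⟨E, A, B, C, s1, s2, s3, hEpos, hA, hB, hC, hE, hmA, hmB, hmC, hs1, hs2, hs3, ?_⟩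
  -- the product of the classes is a square
  have hprod : s1 * s2 * s3 * (A * B * C) ^ 2 = K ^ 2 := by
    rw [← hK]
    conv_rhs => rw [hmB, hmC]
    rw [hmA]; ring
  have hdvd : A * B * C ∣ K := by
    have : (A * B * C) ^ 2 ∣ K ^ 2 := ⟨s1 * s2 * s3, by rw [← hprod]; ring⟩
    exact (Nat.pow_dvd_pow_iff two_ne_zero).mp this
  obtain ⟨t, ht⟩ := hdvd
  refine ⟨t, ?_⟩
  have hABC : 0 < (A * B * C) ^ 2 := by positivity
  apply Nat.eq_of_mul_eq_mul_right hABC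
  rw [hprod, ht]; ring

/-- **C-a** modulo the six congruence kills. -/
theorem normalForm_of_kill
    (hkill : ∀ (A E B C a b c : ℕ), a ≤ 1 → b ≤ 1 → c ≤ 1 → (a = 1 ∨ b = 1) →
      Nat.Coprime (2 ^ a * 3 ^ b * A ^ 2) E →
      2 ^ a * 3 ^ b * A ^ 2 + 9 * E ^ 2 = 3 ^ b * 5 ^ c * B ^ 2 →
      2 ^ a * 3 ^ b * A ^ 2 = 2 ^ a * 5 ^ c * C ^ 2 + 16 * E ^ 2 → False) :
    ∀ x : ℚ, 16 < x → (∃ y : ℚ, y ^ 2 = x * (x + 9) * (x - 16)) →
    ∃ (A E B C d : ℕ), (d = 1 ∨ d = 5) ∧ 0 < E ∧ 0 < C ∧ Nat.Coprime A E ∧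
      (x = (A : ℚ) ^ 2 / (E : ℚ) ^ 2) ∧
      A ^ 2 + 9 * E ^ 2 = d * B ^ 2 ∧ A ^ 2 = d * C ^ 2 + 16 * E ^ 2 := by
  rintro x hx ⟨y, hy⟩
  obtain ⟨m, n, r, hn, hr, hm, hcop, hxmn, hsq⟩ := nf_integral x y hx hy
  obtain ⟨E, A, B, C, s1, s2, s3, hE, hA, hB, hC, hnE, hmA, hmB, hmC, hs1, hs2, hs3, t, ht⟩ :=
    nf_three_factors m n r hn hr hm hcop hsq
  have hs1le : s1 ≤ 6 := by
    simp only [Finset.mem_insert, Finset.mem_singleton] at hs1; omega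
  have hs2le : s2 ≤ 15 := by
    simp only [Finset.mem_insert, Finset.mem_singleton] at hs2; omega
  have hs3le : s3 ≤ 10 := by
    simp only [Finset.mem_insert, Finset.mem_singleton] at hs3; omega
  have htlt : t < 31 := by
    by_contra hcon
    push Not at hcon
    have h1 : 31 * 31 ≤ t ^ 2 := by rw [sq]; exact Nat.mul_le_mul hcon hcon
    have h2 : s1 * s2 * s3 ≤ 6 * 15 * 10 :=
      Nat.mul_le_mul (Nat.mul_le_mul hs1le hs2le) hs3le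
    omega
  obtain ⟨a, ha, b, hb, c, hc, e1, e2, e3⟩ :=
    nf_classes s1 hs1 s2 hs2 s3 hs3 t (Finset.mem_range.mpr htlt) ht
  rw [Finset.mem_range] at ha hb hc
  subst e1 e2 e3
  have hcoE : Nat.Coprime (2 ^ a * 3 ^ b * A ^ 2) E := by
    have h1 : Nat.Coprime (2 ^ a * 3 ^ b * A ^ 2) (E ^ 2) := by rw [← hmA, ← hnE]; exact hcop
    exact Nat.Coprime.coprime_dvd_right (dvd_pow_self E two_ne_zero) h1
  have h1 : 2 ^ a * 3 ^ b * A ^ 2 + 9 * E ^ 2 = 3 ^ b * 5 ^ c * B ^ 2 := by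
    rw [← hmA, ← hnE, hmB]
  have h2 : 2 ^ a * 3 ^ b * A ^ 2 = 2 ^ a * 5 ^ c * C ^ 2 + 16 * E ^ 2 := by
    rw [← hmA, ← hnE, ← hmC, hm]
  by_cases hab : a = 1 ∨ b = 1
  · exact (hkill A E B C a b c (by omega) (by omega) (by omega) hab hcoE h1 h2).elim
  · have ha0 : a = 0 := by omega
    have hb0 : b = 0 := by omega
    subst ha0 hb0
    simp only [pow_zero, one_mul] at h1 h2 hcoE hmA
    refine ⟨A, E, B, C, 5 ^ c, ?_, hE, hC, ?_, ?_, h1, h2⟩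
    · interval_cases c
      · left; norm_num
      · right; norm_num
    · exact (Nat.coprime_pow_left_iff (by norm_num : 0 < 2) A E).mp hcoE
    · rw [hxmn, hmA, hnE]; push_cast; rfl

end Fermat.Agent.S51
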