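import Mathlib.RingTheory.Polynomial.RationalRoot
import Mathlib.Tactic

namespace Fermat.Agent.S51

open Polynomial in
/-- A rational root of a monic integer polynomial is an integer. -/
theorem modEq_int_of_root (p : Polynomial ℤ) (hp : p.Monic) (g : ℚ)
    (h : Polynomial.aeval g p = 0) : ∃ n : ℤ, (n : ℚ) = g := by
  obtain ⟨n, hn⟩ := isInteger_of_is_root_of_monic hp h
  exact ⟨n, by simpa using hn⟩

open Polynomial in
theorem modEq_e1_ne (g : ℚ) : g ^ 2 + 10 * g + 5 ≠ 0 := by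
  intro h
  obtain ⟨n, rfl⟩ := modEq_int_of_root (X ^ 2 + 10 * X + 5) (by monicity!) g
    (by simpa [map_ofNat] using h)
  have h' : n ^ 2 + 10 * n + 5 = 0 := by exact_mod_cast h
  have h1 : (n + 5) ^ 2 = 20 := by linarith
  have h2 : -5 < n + 5 := by nlinarith
  have h3 : n + 5 < 5 := by nlinarith
  have : ∀ m : ℤ, -5 < m → m < 5 → m ^ 2 ≠ 20 := by
    intro m hm1 hm2
    interval_cases m <;> norm_num
  exact this _ h2 h3 h1

open Polynomial in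
theorem modEq_e2_ne (g : ℚ) : g ^ 4 + 14 * g ^ 3 + 44 * g ^ 2 + 10 * g - 5 ≠ 0 := by
  intro h
  obtain ⟨n, rfl⟩ := modEq_int_of_root (X ^ 4 + 14 * X ^ 3 + 44 * X ^ 2 + 10 * X - 5)
    (by monicity!) g (by simpa [map_ofNat] using h)
  have h' : n ^ 4 + 14 * n ^ 3 + 44 * n ^ 2 + 10 * n - 5 = 0 := by exact_mod_cast h
  have hd : n ∣ 5 := ⟨n ^ 3 + 14 * n ^ 2 + 44 * n + 10, by linarith⟩
  have hle : n ≤ 5 := Int.le_of_dvd (by norm_num) hd
  have hge : -5 ≤ n := by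
    have : -n ∣ 5 := (neg_dvd).2 hd
    have := Int.le_of_dvd (by norm_num) this
    linarith
  interval_cases n <;> norm_num at h'

open Polynomial in
theorem modEq_k_ne (g : ℚ) : g ^ 4 + 8 * g ^ 3 + 14 * g ^ 2 - 8 * g + 1 ≠ 0 := by
  intro h
  obtain ⟨n, rfl⟩ := modEq_int_of_root (X ^ 4 + 8 * X ^ 3 + 14 * X ^ 2 - 8 * X + 1)
    (by monicity!) g (by simpa [map_ofNat] using h)
  have h' : n ^ 4 + 8 * n ^ 3 + 14 * n ^ 2 - 8 * n + 1 = 0 := by exact_mod_cast h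
  have hd : n ∣ 1 := ⟨-(n ^ 3 + 8 * n ^ 2 + 14 * n - 8), by linarith⟩
  have hle : n ≤ 1 := Int.le_of_dvd (by norm_num) hd
  have hge : -1 ≤ n := by
    have : -n ∣ 1 := (neg_dvd).2 hd
    have := Int.le_of_dvd (by norm_num) this
    linarith
  interval_cases n <;> norm_num at h'


/-- Numerator of the `x`-coordinate of the map `X₀(15) → E`, `(h, g) ↦ (x, y)`:
`x = - modEqNx h g / (g ^ 2 * modEqE g)`. -/
def modEqNx (h g : ℚ) : ℚ :=
    1562500 + 162500 * g - 1900 * g ^ 2 + 80 * g ^ 3 + 40 * g ^ 4 + 580 * g ^ 5 + 416 * g ^ 6 + 76 * g ^ 7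
    + 4 * g ^ 8 - 3375000 * h * g - 3137400 * h * g ^ 2 - 960840 * h * g ^ 3 - 131400 * h * g ^ 4
    - 8100 * h * g ^ 5 - 180 * h * g ^ 6 - 450000 * h ^ 2 * g - 141300 * h ^ 2 * g ^ 2 - 16020 * h ^ 2 * g ^ 3
    - 720 * h ^ 2 * g ^ 4 - 12500 * h ^ 3 * g - 1900 * h ^ 3 * g ^ 2 - 40 * h ^ 3 * g ^ 3

/-- Numerator of the `y`-coordinate: `y = - modEqNy h g / (g ^ 3 * modEqE g)`. -/
def modEqNy (h g : ℚ) : ℚ :=
    -390625000 - 60937500 * g - 1412500 * g ^ 2 + 19100 * g ^ 3 - 1320 * g ^ 4 + 2080 * g ^ 5 + 6900 * g ^ 6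
    + 3240 * g ^ 7 + 460 * g ^ 8 + 20 * g ^ 9 + 843750000 * h * g + 828225000 * h * g ^ 2 + 280508400 * h * g ^ 3
    + 44883360 * h * g ^ 4 + 3621600 * h * g ^ 5 + 135900 * h * g ^ 6 + 1620 * h * g ^ 7 + 112500000 * h ^ 2 * g
    + 41175000 * h ^ 2 * g ^ 2 + 5777100 * h ^ 2 * g ^ 3 + 365580 * h ^ 2 * g ^ 4 + 8280 * h ^ 2 * g ^ 5
    + 3125000 * h ^ 3 * g + 637500 * h ^ 3 * g ^ 2 + 32900 * h ^ 3 * g ^ 3 + 160 * h ^ 3 * g ^ 4

/-- The denominator factor. -/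
def modEqE (g : ℚ) : ℚ :=
  (g ^ 2 + 10 * g + 5) * (g ^ 4 + 14 * g ^ 3 + 44 * g ^ 2 + 10 * g - 5)

theorem modEqE_ne (g : ℚ) : modEqE g ≠ 0 :=
  mul_ne_zero (modEq_e1_ne g) (modEq_e2_ne g)

/-- On the modular curve `Φ(h, g) = 0` the pair `(x, y)` satisfies the Weierstrass equation
(cleared of denominators). -/
theorem modEq_curve (h g : ℚ) (hΦ : (h + 27) * (h + 3) ^ 3 * g = (g ^ 2 + 10 * g + 5) ^ 3 * h) :
    modEqNy h g ^ 2 * modEqE g =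
      modEqNx h g * (9 * (g ^ 2 * modEqE g) - modEqNx h g) *
        (modEqNx h g + 16 * (g ^ 2 * modEqE g)) := by
  unfold modEqNx modEqNy modEqE
  linear_combination
    (65917968750000000 * g + 129410156250000000 * g ^ 2 + 75607593750000000 * g ^ 3 + 20889689625000000 * g ^ 4
      + 3150531990000000 * g ^ 5 + 267881742000000 * g ^ 6 + 8853662160000 * g ^ 7 - 5708886912000 * g ^ 8
      - 4369007376000 * g ^ 9 - 1712668032000 * g ^ 10 - 397064592000 * g ^ 11 - 56796984000 * g ^ 12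
      - 5015880000 * g ^ 13 - 261576000 * g ^ 14 - 7128000 * g ^ 15 - 72000 * g ^ 16 + 8789062500000000 * h * g
      - 135949218750000000 * h * g ^ 2 - 395252156250000000 * h * g ^ 3 - 422314261875000000 * h * g ^ 4
      - 238563917271000000 * h * g ^ 5 - 82142273516400000 * h * g ^ 6 - 18513402685920000 * h * g ^ 7
      - 2830644482904000 * h * g ^ 8 - 297283164840000 * h * g ^ 9 - 21290800248000 * h * g ^ 10
      - 1010217384000 * h * g ^ 11 - 29941992000 * h * g ^ 12 - 496296000 * h * g ^ 13 - 3600000 * h * g ^ 14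
      + 244140625000000 * h ^ 2 * g - 37869140625000000 * h ^ 2 * g ^ 2 - 70812281250000000 * h ^ 2 * g ^ 3
      - 49097897000000000 * h ^ 2 * g ^ 4 - 18103764315000000 * h ^ 2 * g ^ 5 - 4069821001200000 * h ^ 2 * g ^ 6
      - 592370929480000 * h ^ 2 * g ^ 7 - 56915358024000 * h ^ 2 * g ^ 8 - 3565486632000 * h ^ 2 * g ^ 9
      - 138710152000 * h ^ 2 * g ^ 10 - 3002472000 * h ^ 2 * g ^ 11 - 27480000 * h ^ 2 * g ^ 12
      - 8000 * h ^ 2 * g ^ 13 - 3585937500000000 * h ^ 3 * g ^ 2 - 4095562500000000 * h ^ 3 * g ^ 3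
      - 1921586625000000 * h ^ 3 * g ^ 4 - 489577365000000 * h ^ 3 * g ^ 5 - 74574885600000 * h ^ 3 * g ^ 6
      - 6981323040000 * h ^ 3 * g ^ 7 - 393826968000 * h ^ 3 * g ^ 8 - 12412440000 * h ^ 3 * g ^ 9
      - 183168000 * h ^ 3 * g ^ 10 - 864000 * h ^ 3 * g ^ 11 - 140625000000000 * h ^ 4 * g ^ 2
      - 98296875000000 * h ^ 4 * g ^ 3 - 28319625000000 * h ^ 4 * g ^ 4 - 4327605000000 * h ^ 4 * g ^ 5
      - 372994200000 * h ^ 4 * g ^ 6 - 17612640000 * h ^ 4 * g ^ 7 - 402912000 * h ^ 4 * g ^ 8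
      - 3456000 * h ^ 4 * g ^ 9 - 1953125000000 * h ^ 5 * g ^ 2 - 890625000000 * h ^ 5 * g ^ 3
      - 154125000000 * h ^ 5 * g ^ 4 - 12559000000 * h ^ 5 * g ^ 5 - 493200000 * h ^ 5 * g ^ 6
      - 9120000 * h ^ 5 * g ^ 7 - 64000 * h ^ 5 * g ^ 8) * hΦ

theorem modEq_elim_zero (h g : ℚ) (hΦ : (h + 27) * (h + 3) ^ 3 * g = (g ^ 2 + 10 * g + 5) ^ 3 * h)
    (hP : (0) * (g ^ 2 * modEqE g) + modEqNx h g = 0) :
    g ^ 2 * (g ^ 2 + 10 * g + 5) ^ 4 * (g ^ 4 + 8 * g ^ 3 + 14 * g ^ 2 - 8 * g + 1) = 0 := by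
  unfold modEqNx modEqE at hP
  linear_combination
    ((405/4) * g + (935/2) * g ^ 2 + (635/2) * g ^ 3 + (299/4) * g ^ 4 + (29/4) * g ^ 5 + (1/4) * g ^ 6
      - (625/36) * h - (1355/18) * h * g + (100/9) * h * g ^ 2 + (25/9) * h * g ^ 3 + (5/36) * h * g ^ 4
      - (25/36) * h ^ 2 - (95/9) * h ^ 2 * g - (5/36) * h ^ 2 * g ^ 2 - (5/18) * h ^ 3 * g) * hP +
    (-(1953125/9) - (3073750/3) * g - (2353375/3) * g ^ 2 - (2068225/9) * g ^ 3 - (94400/3) * g ^ 4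
      - 1975 * g ^ 5 - (400/9) * g ^ 6 - (78125/9) * h - (1199375/9) * h * g - (378625/9) * h * g ^ 2
      - (42625/9) * h * g ^ 3 - (1850/9) * h * g ^ 4 - (31250/9) * h ^ 2 * g - (4750/9) * h ^ 2 * g ^ 2
      - (100/9) * h ^ 2 * g ^ 3) * hΦ

theorem modEq_elim_negNine (h g : ℚ) (hΦ : (h + 27) * (h + 3) ^ 3 * g = (g ^ 2 + 10 * g + 5) ^ 3 * h)
    (hP : (-9) * (g ^ 2 * modEqE g) + modEqNx h g = 0) :
    g ^ 1 * (g ^ 2 + 10 * g + 5) ^ 4 * (g ^ 4 + 8 * g ^ 3 + 14 * g ^ 2 - 8 * g + 1) * (1 * g + 10) ^ 2 = 0 := by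
  unfold modEqNx modEqE at hP
  linear_combination
    (-3551 * g - (36204/5) * g ^ 2 - 4063 * g ^ 3 - (5056/5) * g ^ 4 - (637/5) * g ^ 5 - 8 * g ^ 6
      - (1/5) * g ^ 7 + (5480/9) * h + (6712/9) * h * g + (1032/5) * h * g ^ 2 + (296/9) * h * g ^ 3
      + (44/15) * h * g ^ 4 + (4/45) * h * g ^ 5 + 80 * h ^ 2 + (172/3) * h ^ 2 * g + (36/5) * h ^ 2 * g ^ 2
      + (20/9) * h ^ 3 + (4/3) * h ^ 3 * g + (8/45) * h ^ 3 * g ^ 2) * hP +
    ((68500000/9) + (146800000/9) * g + (30936400/3) * g ^ 2 + (27475040/9) * g ^ 3 + (4391024/9) * g ^ 4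
      + 43136 * g ^ 5 + (17696/9) * g ^ 6 + (320/9) * g ^ 7 + 1000000 * h + (3092000/3) * h * g
      + (995200/3) * h * g ^ 2 + (149920/3) * h * g ^ 3 + 3840 * h * g ^ 4 + 128 * h * g ^ 5 + (250000/9) * h ^ 2
      + (188000/9) * h ^ 2 * g + (43600/9) * h ^ 2 * g ^ 2 + (3520/9) * h ^ 2 * g ^ 3 + (64/9) * h ^ 2 * g ^ 4) * hΦ

theorem modEq_elim_sixteen (h g : ℚ) (hΦ : (h + 27) * (h + 3) ^ 3 * g = (g ^ 2 + 10 * g + 5) ^ 3 * h)
    (hP : (16) * (g ^ 2 * modEqE g) + modEqNx h g = 0) :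
    g ^ 1 * (g ^ 2 + 10 * g + 5) ^ 4 * (g ^ 4 + 8 * g ^ 3 + 14 * g ^ 2 - 8 * g + 1) * (1 * g + 40) ^ 2 = 0 := by
  unfold modEqNx modEqE at hP
  linear_combination
    (31231 * g + (1000809/20) * g ^ 2 + (38007/2) * g ^ 3 + (28583/10) * g ^ 4 + (3807/20) * g ^ 5
      + (21/4) * g ^ 6 + (1/20) * g ^ 7 - 5355 * h - (16497/4) * h * g - (16011/10) * h * g ^ 2
      - 126 * h * g ^ 3 + (18/5) * h * g ^ 4 + (9/20) * h * g ^ 5 - 720 * h ^ 2 - (261/4) * h ^ 2 * g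
      - (189/5) * h ^ 2 * g ^ 2 - (9/4) * h ^ 2 * g ^ 3 - 20 * h ^ 3 + 2 * h ^ 3 * g - (1/10) * h ^ 3 * g ^ 2) * hP +
    (-66937500 - 114215625 * g - 51821550 * g ^ 2 - 10266705 * g ^ 3 - 1014129 * g ^ 4 - 50544 * g ^ 5
      - 1071 * g ^ 6 - 9000000 * h - 3641625 * h * g - 771075 * h * g ^ 2 - 95085 * h * g ^ 3 - 5805 * h * g ^ 4
      - 162 * h * g ^ 5 - 250000 * h ^ 2 - 13000 * h ^ 2 * g + 1750 * h ^ 2 * g ^ 2 - 110 * h ^ 2 * g ^ 3
      - 4 * h ^ 2 * g ^ 4) * hΦ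

theorem modEq_elim_negFour (h g : ℚ) (hΦ : (h + 27) * (h + 3) ^ 3 * g = (g ^ 2 + 10 * g + 5) ^ 3 * h)
    (hP : (-4) * (g ^ 2 * modEqE g) + modEqNx h g = 0) :
    g ^ 1 * (g ^ 2 + 10 * g + 5) ^ 4 * (g ^ 4 + 8 * g ^ 3 + 14 * g ^ 2 - 8 * g + 1) * (8 * g + 25) ^ 1 = 0 := by
  unfold modEqNx modEqE at hP
  linear_combination
    (-(20339/10) * g - (49113/10) * g ^ 2 - (7083/2) * g ^ 3 - (5684/5) * g ^ 4 - (3591/20) * g ^ 5
      - (273/20) * g ^ 6 - (2/5) * g ^ 7 + (1395/4) * h + (11259/20) * h * g + (1899/10) * h * g ^ 2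
      + 18 * h * g ^ 3 + (9/10) * h * g ^ 4 + 45 * h ^ 2 + (1107/20) * h ^ 2 * g + (279/20) * h ^ 2 * g ^ 2
      + (5/4) * h ^ 3 + (29/20) * h ^ 3 * g + (2/5) * h ^ 3 * g ^ 2) * hP +
    (4359375 + 10980000 * g + 8679870 * g ^ 2 + 3213018 * g ^ 3 + 629424 * g ^ 4 + 66636 * g ^ 5
      + 3537 * g ^ 6 + 72 * g ^ 7 + 562500 * h + 868500 * h * g + 405270 * h * g ^ 2 + 79920 * h * g ^ 3
      + 7434 * h * g ^ 4 + 288 * h * g ^ 5 + 15625 * h ^ 2 + 20500 * h ^ 2 * g + 7805 * h ^ 2 * g ^ 2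
      + 818 * h ^ 2 * g ^ 3 + 16 * h ^ 2 * g ^ 4) * hΦ

theorem modEq_elim_thirtySix (h g : ℚ) (hΦ : (h + 27) * (h + 3) ^ 3 * g = (g ^ 2 + 10 * g + 5) ^ 3 * h)
    (hP : (36) * (g ^ 2 * modEqE g) + modEqNx h g = 0) :
    g ^ 1 * (g ^ 2 + 10 * g + 5) ^ 4 * (g ^ 4 + 8 * g ^ 3 + 14 * g ^ 2 - 8 * g + 1) * (2 * g + 25) ^ 1 = 0 := by
  unfold modEqNx modEqE at hP
  linear_combination
    ((2179/10) * g + (735/2) * g ^ 2 + (758/5) * g ^ 3 + (126/5) * g ^ 4 + (37/20) * g ^ 5 + (1/20) * g ^ 6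
      - (1345/36) * h - (5771/180) * h * g - (193/18) * h * g ^ 2 - (11/9) * h * g ^ 3 - (2/45) * h * g ^ 4
      - 5 * h ^ 2 - (193/180) * h ^ 2 * g - (7/36) * h ^ 2 * g ^ 2 - (1/90) * h ^ 2 * g ^ 3 - (5/36) * h ^ 3
      - (1/180) * h ^ 3 * g) * hP +
    (-(4203125/9) - 836250 * g - (1219660/3) * g ^ 2 - (786172/9) * g ^ 3 - (28304/3) * g ^ 4
      - (1516/3) * g ^ 5 - (97/9) * g ^ 6 - 62500 * h - (297250/9) * h * g - (63880/9) * h * g ^ 2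
      - (6590/9) * h * g ^ 3 - (296/9) * h * g ^ 4 - (4/9) * h * g ^ 5 - (15625/9) * h ^ 2 - (1000/3) * h ^ 2 * g
      - (145/9) * h ^ 2 * g ^ 2 - (2/9) * h ^ 2 * g ^ 3) * hΦ

/-- **Part B of S51** (the modular equation of `X₀(15)`), relative to part C
(the rational points of `y² = x (x + 9) (x - 16)`, only the `x`-values are used). -/
theorem modular_equation_of
    (C : ∀ x y : ℚ, y ^ 2 = x * (x + 9) * (x - 16) →
      x = 0 ∨ x = -9 ∨ x = 16 ∨ x = -4 ∨ x = 36)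
    (h g : ℚ) (_hh : h ≠ 0) (hg : g ≠ 0)
    (hΦ : (h + 27) * (h + 3) ^ 3 * g = (g ^ 2 + 10 * g + 5) ^ 3 * h) :
    g = -10 ∨ g = -25 / 8 ∨ g = -25 / 2 ∨ g = -40 := by
  have he := modEqE_ne g
  have he1 := modEq_e1_ne g
  have hk := modEq_k_ne g
  have hD2 : g ^ 2 * modEqE g ≠ 0 := mul_ne_zero (pow_ne_zero _ hg) he
  have hD3 : g ^ 3 * modEqE g ≠ 0 := mul_ne_zero (pow_ne_zero _ hg) he
  have hx : (-modEqNx h g / (g ^ 2 * modEqE g)) * (g ^ 2 * modEqE g) = -modEqNx h g :=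
    div_mul_cancel₀ _ hD2
  have hy : (-modEqNy h g / (g ^ 3 * modEqE g)) * (g ^ 3 * modEqE g) = -modEqNy h g :=
    div_mul_cancel₀ _ hD3
  generalize -modEqNx h g / (g ^ 2 * modEqE g) = x at hx
  generalize -modEqNy h g / (g ^ 3 * modEqE g) = y at hy
  have hcurve := modEq_curve h g hΦ
  have hxy : y ^ 2 = x * (x + 9) * (x - 16) := by
    have h6 : g ^ 6 * modEqE g ^ 3 ≠ 0 := mul_ne_zero (pow_ne_zero _ hg) (pow_ne_zero _ he)
    have : (y ^ 2 - x * (x + 9) * (x - 16)) * (g ^ 6 * modEqE g ^ 3) = 0 := by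
      have hNx : modEqNx h g = -(x * (g ^ 2 * modEqE g)) := by rw [hx]; ring
      have hNy : modEqNy h g = -(y * (g ^ 3 * modEqE g)) := by rw [hy]; ring
      rw [hNx, hNy] at hcurve
      linear_combination hcurve
    rcases mul_eq_zero.1 this with h0 | h0
    · exact sub_eq_zero.1 h0
    · exact absurd h0 h6
  have hP : ∀ x0 : ℚ, x = x0 → x0 * (g ^ 2 * modEqE g) + modEqNx h g = 0 := by
    intro x0 hx0
    rw [← hx0]
    linear_combination hx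
  rcases C x y hxy with h0 | h0 | h0 | h0 | h0
  · exfalso
    have := modEq_elim_zero h g hΦ (by simpa using hP 0 h0)
    simp [hg, he1, hk] at this
  · left
    have := modEq_elim_negNine h g hΦ (by simpa using hP (-9) h0)
    have h1 : g + 10 = 0 := by simpa [hg, he1, hk] using this
    linarith
  · right; right; right
    have := modEq_elim_sixteen h g hΦ (by simpa using hP 16 h0)
    have h1 : g + 40 = 0 := by simpa [hg, he1, hk] using this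
    linarith
  · right; left
    have := modEq_elim_negFour h g hΦ (by simpa using hP (-4) h0)
    have h1 : 8 * g + 25 = 0 := by simpa [hg, he1, hk] using this
    linarith
  · right; right; left
    have := modEq_elim_thirtySix h g hΦ (by simpa using hP 36 h0)
    have h1 : 2 * g + 25 = 0 := by simpa [hg, he1, hk] using this
    linarith

end Fermat.Agent.S51
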